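/-
S15, block OUTER (Z6), sub-block QUAD (helper62): the four degeneracy maps
`FN p, FN q → FN (p * q)`, the four restrictions of a place `w` of `FN (p * q)`, and the support of `T_q (x)`.

series:           `j(t)`          `j(t^p)`          `j(t^q)`          `j(t^(p q))`
in `FN (p*q)`:    `J1 p q`        `Jp p q`          `Jq p q`          `Jpq p q`

* `aP p q = heckeAlphaBar`  : `FN p → FN (p*q)`,  `j ↦ J1`, `j_p ↦ Jp`
* `bP p q = heckeBetaBar`   : `FN p → FN (p*q)`,  `j ↦ Jq`, `j_p ↦ Jpq`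
* `aQ p q = lvl`            : `FN q → FN (p*q)`,  `j ↦ J1`, `j_q ↦ Jq`
* `bQ p q`                  : `FN q → FN (p*q)`,  `j ↦ Jp`, `j_q ↦ Jpq`

`T_q = (aP)_* (bP)^*` : `exists_place_of_heckeDiv` : `y ∈ supp T_q (x)` ⟹ `∃ w, w|bP = x ∧ w|aP = y`.
-/
import Fermat.Agent.S15.Red.Conc
import Fermat.Agent.DR.Gal.Level
import Fermat.Agent.S37.BetaDeg

set_option autoImplicit false
set_option linter.unusedSectionVars false

noncomputable section

namespace Fermat.Agent.S15.Outer

open AlgebraicCurve ModularCurve Fermat.Agent.S24 Fermat.Agent.GAL Fermat.Agent.GAL.Hecke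
  Fermat.Agent.S37 Fermat.Agent.Lib.RR Fermat.Agent.DR.Gal

/-! ### abstract: orders along a restriction -/

section abs

variable {K F F' : Type*} [Field K] [Field F] [Field F'] [Algebra K F] [Algebra K F']
  (φ : F →ₐ[K] F') (hφ : φ.toRingHom.IsIntegral) (w : Place K F')

include hφ in
theorem ramAlong_pos : 0 < Place.ramificationIndexAlong φ w := by
  letI := algebraAlong φ
  haveI := isScalarTower_along φ
  haveI := isIntegral_along φ hφ
  exact Place.ramificationIndex_pos (K := K) (F := F) w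

theorem ord_restrictAlong_pos_iff (f : F) : 0 < (w.restrictAlong φ hφ).ord f ↔ 0 < w.ord (φ f) := by
  rw [Place.ord_restrictAlong φ hφ w f]
  have h : (0 : ℤ) < Place.ramificationIndexAlong φ w := by exact_mod_cast ramAlong_pos φ hφ w
  constructor
  · intro h1; positivity
  · intro h1; exact (pos_iff_pos_of_mul_pos h1).1 h

theorem ord_restrictAlong_neg_iff (f : F) : (w.restrictAlong φ hφ).ord f < 0 ↔ w.ord (φ f) < 0 := by
  rw [Place.ord_restrictAlong φ hφ w f]
  have h : (0 : ℤ) < Place.ramificationIndexAlong φ w := by exact_mod_cast ramAlong_pos φ hφ w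
  constructor
  · intro h1; exact mul_neg_of_pos_of_neg h h1
  · intro h1; exact (pos_iff_neg_of_mul_neg h1).1 h

theorem ord_restrictAlong_nonneg_iff (f : F) : 0 ≤ (w.restrictAlong φ hφ).ord f ↔ 0 ≤ w.ord (φ f) := by
  rw [← not_lt, ← not_lt, ord_restrictAlong_neg_iff]

/-- proportionality of orders is insensitive to restriction. -/
theorem ord_restrictAlong_prop_iff (f g : F) (m n : ℤ) :
    m * (w.restrictAlong φ hφ).ord f = n * (w.restrictAlong φ hφ).ord g ↔
      m * w.ord (φ f) = n * w.ord (φ g) := by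
  rw [Place.ord_restrictAlong φ hφ w f, Place.ord_restrictAlong φ hφ w g]
  have h : (Place.ramificationIndexAlong φ w : ℤ) ≠ 0 := by
    exact_mod_cast (ramAlong_pos φ hφ w).ne'
  constructor
  · intro h1
    linear_combination (Place.ramificationIndexAlong φ w : ℤ) * h1
  · intro h1
    apply mul_left_cancel₀ h
    linear_combination h1

/-- the value at the restricted place. -/
theorem ord_restrictAlong_sub_pos_iff (f : F) (a : K) :
    0 < (w.restrictAlong φ hφ).ord (f - algebraMap K F a) ↔ 0 < w.ord (φ f - algebraMap K F' a) := by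
  rw [ord_restrictAlong_pos_iff, map_sub, AlgHom.commutes]

end abs

/-! ### support of a correspondence -/

section corr

variable {K F F' : Type*} [Field K] [Field F] [Field F'] [Algebra K F] [Algebra K F']
  [HasPrincipalDivisors K F']

theorem exists_place_of_correspondence (φ ψ : F →ₐ[K] F') (hφ : φ.toRingHom.IsIntegral)
    (hψ : ψ.toRingHom.IsIntegral) (x y : Place K F)
    (h : Divisor.pushforwardAlong ψ hψ (Divisor.pullbackAlong φ hφ (pt x)) y ≠ 0) :
    ∃ w : Place K F', w.restrictAlong φ hφ = x ∧ w.restrictAlong ψ hψ = y := by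
  classical
  set D' := Divisor.pullbackAlong φ hφ (pt x) with hD'
  have h1 : Divisor.pushforwardAlong ψ hψ D'
      = ∑ W ∈ D'.support, D' W • Divisor.pushforwardAlong ψ hψ (pt W) := by
    conv_lhs => rw [← Finsupp.sum_single D']
    rw [Finsupp.sum, map_sum]
    refine Finset.sum_congr rfl fun W _ => ?_
    rw [← map_zsmul]
    congr 1
    rw [Finsupp.smul_single, smul_eq_mul, mul_one]
  rw [h1, Finsupp.finsetSum_apply] at h
  obtain ⟨W, hW, hne⟩ := Finset.exists_ne_zero_of_sum_ne_zero h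
  refine ⟨W, ?_, ?_⟩
  · have h2 : D' W ≠ 0 := Finsupp.mem_support_iff.mp hW
    rw [hD', Divisor.pullbackAlong_apply, Finsupp.single_apply] at h2
    by_contra hne'
    rw [if_neg (fun e => hne' e.symm), mul_zero] at h2
    exact h2 rfl
  by_contra hne'
  apply hne
  rw [Finsupp.smul_apply, Divisor.pushforwardAlong_single, Finsupp.single_apply, if_neg hne', smul_zero]

end corr

/-! ### the four maps -/

variable (p q : ℕ) [NeZero p] [NeZero q]

instance instNeZeroMul : NeZero (p * q) := ⟨mul_ne_zero (NeZero.ne p) (NeZero.ne q)⟩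

/-- `j(t)`. -/
def J1 : FN (p * q) := jF (p * q)
/-- `j(t^p)`. -/
def Jp : FN (p * q) := FNAdjoin.jd (p * q) p (dvd_mul_right p q)
/-- `j(t^q)`. -/
def Jq : FN (p * q) := FNAdjoin.jd (p * q) q (dvd_mul_left q p)
/-- `j(t^(p q))`. -/
def Jpq : FN (p * q) := FNAdjoin.jd (p * q) (p * q) dvd_rfl

/-- `FN p → FN (p q)`, the inclusion. -/
def aP : FN p →ₐ[Kbar] FN (p * q) := heckeAlphaBar Kbar p q
/-- `FN p → FN (p q)`, `t ↦ t^q`. -/
def bP : FN p →ₐ[Kbar] FN (p * q) := heckeBetaBar Kbar p q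
/-- `FN q → FN (p q)`, the inclusion. -/
def aQ : FN q →ₐ[Kbar] FN (p * q) := lvl (dvd_mul_left q p)
/-- `FN q → FN (p q)`, `t ↦ t^p`. -/
def bQ : FN q →ₐ[Kbar] FN (p * q) :=
  (lvl (N := q * p) (N' := p * q) (by rw [mul_comm])).comp (heckeBetaBar Kbar q p)

theorem integral_aP : (aP p q).toRingHom.IsIntegral := integral_alpha p q
theorem integral_bP : (bP p q).toRingHom.IsIntegral := integral_beta p q
theorem integral_aQ : (aQ p q).toRingHom.IsIntegral := integral_lvl _
theorem integral_bQ : (bQ p q).toRingHom.IsIntegral :=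
  RingHom.IsIntegral.trans _ _ (integral_beta q p) (integral_lvl _)

theorem coe_aP (f : FN p) : ((aP p q f : FN (p * q)) : LaurentSeries Kbar) = f := coe_heckeAlphaBar p q f
theorem coe_bP (f : FN p) : ((bP p q f : FN (p * q)) : LaurentSeries Kbar) = qExpand Kbar q f :=
  coe_heckeBetaBar p q f
theorem coe_aQ (f : FN q) : ((aQ p q f : FN (p * q)) : LaurentSeries Kbar) = f := coe_lvl _ f
theorem coe_bQ (f : FN q) : ((bQ p q f : FN (p * q)) : LaurentSeries Kbar) = qExpand Kbar p f := by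
  unfold bQ
  rw [AlgHom.comp_apply, coe_lvl, coe_heckeBetaBar]

theorem coe_jF' (N : ℕ) : ((jF N : FN N) : LaurentSeries Kbar) = coeffEmb Kbar jq := by
  rw [← FNAdjoin.jd_one, FNAdjoin.coe_jd, qExpand_one_apply]

theorem qExpand_qExpand' (a b : ℕ) [NeZero a] [NeZero b] (x : LaurentSeries Kbar) :
    qExpand Kbar a (qExpand Kbar b x) = qExpand Kbar (b * a) x := by
  rw [qExpand_qExpand]
  exact qExpand_congr (mul_comm a b) x

theorem aP_j : aP p q (jF p) = J1 p q := Subtype.ext (by rw [coe_aP, J1, coe_jF', coe_jF'])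
theorem aP_jp : aP p q (FNAdjoin.jd p p dvd_rfl) = Jp p q := Subtype.ext (by rw [coe_aP]; rfl)
theorem bP_j : bP p q (jF p) = Jq p q :=
  Subtype.ext (by rw [coe_bP, Jq, FNAdjoin.coe_jd', coe_jF'])
theorem bP_jp : bP p q (FNAdjoin.jd p p dvd_rfl) = Jpq p q :=
  Subtype.ext (by rw [coe_bP, Jpq, FNAdjoin.coe_jd', FNAdjoin.coe_jd', qExpand_qExpand'])
theorem aQ_j : aQ p q (jF q) = J1 p q := Subtype.ext (by rw [coe_aQ, J1, coe_jF', coe_jF'])
theorem aQ_jq : aQ p q (FNAdjoin.jd q q dvd_rfl) = Jq p q := Subtype.ext (by rw [coe_aQ]; rfl)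
theorem bQ_j : bQ p q (jF q) = Jp p q :=
  Subtype.ext (by rw [coe_bQ, Jp, FNAdjoin.coe_jd', coe_jF'])
theorem bQ_jq : bQ p q (FNAdjoin.jd q q dvd_rfl) = Jpq p q :=
  Subtype.ext (by
    rw [coe_bQ, Jpq, FNAdjoin.coe_jd', FNAdjoin.coe_jd', qExpand_qExpand])

/-! ### the four restrictions of a place of `FN (p * q)` -/

variable {p q}

/-- `w|bP` (the point `x` of `T_q x`). -/
def rbP (w : Place Kbar (FN (p * q))) : Place Kbar (FN p) := w.restrictAlong (bP p q) (integral_bP p q)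
/-- `w|aP` (a point `y` of the support of `T_q x`). -/
def raP (w : Place Kbar (FN (p * q))) : Place Kbar (FN p) := w.restrictAlong (aP p q) (integral_aP p q)
/-- `w|aQ`. -/
def raQ (w : Place Kbar (FN (p * q))) : Place Kbar (FN q) := w.restrictAlong (aQ p q) (integral_aQ p q)
/-- `w|bQ`. -/
def rbQ (w : Place Kbar (FN (p * q))) : Place Kbar (FN q) := w.restrictAlong (bQ p q) (integral_bQ p q)

variable (w : Place Kbar (FN (p * q)))

theorem isPt_rbP_iff (a b : Kbar) : IsPt p (rbP w) a b ↔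
    0 < w.ord (Jq p q - algebraMap Kbar _ a) ∧ 0 < w.ord (Jpq p q - algebraMap Kbar _ b) := by
  constructor
  · rintro ⟨h1, h2⟩
    exact ⟨by rw [← bP_j]; exact (ord_restrictAlong_sub_pos_iff _ _ w _ a).1 h1,
      by rw [← bP_jp]; exact (ord_restrictAlong_sub_pos_iff _ _ w _ b).1 h2⟩
  · rintro ⟨h1, h2⟩
    exact ⟨(ord_restrictAlong_sub_pos_iff _ _ w _ a).2 (by rw [bP_j]; exact h1),
      (ord_restrictAlong_sub_pos_iff _ _ w _ b).2 (by rw [bP_jp]; exact h2)⟩

theorem isPt_raP_iff (a b : Kbar) : IsPt p (raP w) a b ↔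
    0 < w.ord (J1 p q - algebraMap Kbar _ a) ∧ 0 < w.ord (Jp p q - algebraMap Kbar _ b) := by
  constructor
  · rintro ⟨h1, h2⟩
    exact ⟨by rw [← aP_j]; exact (ord_restrictAlong_sub_pos_iff _ _ w _ a).1 h1,
      by rw [← aP_jp]; exact (ord_restrictAlong_sub_pos_iff _ _ w _ b).1 h2⟩
  · rintro ⟨h1, h2⟩
    exact ⟨(ord_restrictAlong_sub_pos_iff _ _ w _ a).2 (by rw [aP_j]; exact h1),
      (ord_restrictAlong_sub_pos_iff _ _ w _ b).2 (by rw [aP_jp]; exact h2)⟩

theorem isPt_raQ_iff (a b : Kbar) : IsPt q (raQ w) a b ↔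
    0 < w.ord (J1 p q - algebraMap Kbar _ a) ∧ 0 < w.ord (Jq p q - algebraMap Kbar _ b) := by
  constructor
  · rintro ⟨h1, h2⟩
    exact ⟨by rw [← aQ_j]; exact (ord_restrictAlong_sub_pos_iff _ _ w _ a).1 h1,
      by rw [← aQ_jq]; exact (ord_restrictAlong_sub_pos_iff _ _ w _ b).1 h2⟩
  · rintro ⟨h1, h2⟩
    exact ⟨(ord_restrictAlong_sub_pos_iff _ _ w _ a).2 (by rw [aQ_j]; exact h1),
      (ord_restrictAlong_sub_pos_iff _ _ w _ b).2 (by rw [aQ_jq]; exact h2)⟩

theorem isPt_rbQ_iff (a b : Kbar) : IsPt q (rbQ w) a b ↔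
    0 < w.ord (Jp p q - algebraMap Kbar _ a) ∧ 0 < w.ord (Jpq p q - algebraMap Kbar _ b) := by
  constructor
  · rintro ⟨h1, h2⟩
    exact ⟨by rw [← bQ_j]; exact (ord_restrictAlong_sub_pos_iff _ _ w _ a).1 h1,
      by rw [← bQ_jq]; exact (ord_restrictAlong_sub_pos_iff _ _ w _ b).1 h2⟩
  · rintro ⟨h1, h2⟩
    exact ⟨(ord_restrictAlong_sub_pos_iff _ _ w _ a).2 (by rw [bQ_j]; exact h1),
      (ord_restrictAlong_sub_pos_iff _ _ w _ b).2 (by rw [bQ_jq]; exact h2)⟩

/-- `y ∈ supp T_q (x)` comes from a place `w` of level `p q`. -/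
theorem exists_place_of_heckeDiv {x y : Place Kbar (FN p)} (h : heckeDiv p q (pt x) y ≠ 0) :
    ∃ w : Place Kbar (FN (p * q)), rbP w = x ∧ raP w = y :=
  exists_place_of_correspondence (bP p q) (aP p q) (integral_bP p q) (integral_aP p q) x y h

end Fermat.Agent.S15.Outer
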