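import Fermat.Agent.S15.Outer.NP.Map
import Fermat.Agent.S15.Outer.Quad
import Fermat.Agent.GAL.Igusa.CuspEmb
import Fermat.Agent.GAL.Igusa.LevelDeg
import Fermat.Agent.S15.Outer.Phi.Base

/-!
# S15 / OUTER, block PHI: `j(q)` and `j(q^e)` satisfy a relation with the shape of the modular equation
-/

set_option autoImplicit false

noncomputable section

namespace Fermat.Agent.S15.Outer

open AlgebraicCurve ModularCurve Fermat.Agent.S24 Fermat.Agent.S28 Polynomial

/-- **LEAF PHI-BASE** (the only real content; `q`-series algebra).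
`Igusa.hB e he` (`: StatementB`) gives `Φ : ℤ[X][X]` monic with, for `K = Kbar` and a primitive `e`-th root of unity `ζ`,
`Φ.map (evBase e K) = (X - C (rootInf e K)) * ∏ b ∈ range e, (X - C (rootFin ζ b))`   in `K((y))[X]`,
`evBase : ℤ[Y] → K((y))`, `Y ↦ jBase = j(y^e) = y^(-e) + ..`; `rootInf = j(y^(e²)) = y^(-e²) + ..`, `rootFin ζ b = j(ζ^b y) = ζ^(-b) y^(-1) + ..`.
Write `P_k := Φ.coeff k ∈ ℤ[Y]`, `0 ≤ k ≤ e + 1`, `P_(e+1) = 1`.
Say `Bd n f` if all coefficients of `f` of index `< n` vanish (closed under `+`; `Bd n f → Bd m g → Bd (n+m) (f g)`).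
(a) for `P ∈ ℤ[Y]` of degree `d` and leading coefficient `a`: `evBase P` is `Bd (-e d)` and its coefficient of index `-e d` is `a ≠ 0`.
(b) the coefficient of `X^k` in the product is `± ` a sum of products of `e + 1 - k` distinct roots, so it is `Bd (-(e² + e - k))`; hence
  `e * deg P_k ≤ e² + e - k`, i.e. `deg P_k ≤ e` for `k ≥ 1` and `deg P_0 ≤ e + 1`.
(c) `k = e`: `P_e ↦ -(rootInf + ∑ rootFin)`, coefficient of index `-e²` equal to `-1`: so `deg P_e = e` with leading coefficient `-1 =: u1`.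
(d) `k = 0`: `P_0 ↦ ± rootInf ∏ rootFin`, coefficient of index `-(e² + e)` equal to `± ∏ ζ^(-b)`, a root of unity: so `deg P_0 = e + 1`,
  and its leading coefficient `u0 ∈ ℤ` satisfies `u0^(2e) = 1` in `K`, hence in `ℤ`: `IsUnit u0` (`Int.isUnit_iff`, `isUnit_of_pow_eq_one`).
(e) `rootInf` is a root of `Φ.map evBase`; expand `∑_k P_k(jBase) rootInf^k = 0`, `P_k = ∑_i (P_k.coeff i) Y^i`;
  `c i k := (Φ.coeff k).coeff i` for `i, k ≤ e`, `(i,k) ≠ (e,e)`, `c e e := 0`  (`X = jBase`, `Y = rootInf`). -/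
theorem modRel_base (e : ℕ) [NeZero e] (he : e.Prime) :
    ModRel e (jBase e Kbar) (rootInf e Kbar) := by
  obtain ⟨Φ, U, G, m, c, hB⟩ := GAL.Igusa.hB e he
  obtain ⟨ζ, hζ⟩ := exists_prim (K := Kbar) (p := e) (Nat.cast_ne_zero.2 he.ne_zero)
  exact PhiBase.modRel_of_bdata e he hB ζ hζ

/-- `qExpand Kbar e` is an injective ring homomorphism (`ModRel.of_map`). -/
theorem modRel_series (e : ℕ) [NeZero e] (he : e.Prime) :
    ModRel e (coeffEmb Kbar jq) (qExpand Kbar e (coeffEmb Kbar jq)) := by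
  refine ModRel.of_map (qExpand Kbar e) (qExpand_injective e) ?_
  rw [Fermat.Agent.GAL.Igusa.LevelDeg_coeffEmb_jq]
  exact modRel_base e he

/-- apply `qExpand Kbar d` (`ModRel.map`). -/
theorem modRel_series' (e d : ℕ) [NeZero e] [NeZero d] (he : e.Prime) :
    ModRel e (qExpand Kbar d (coeffEmb Kbar jq)) (qExpand Kbar (d * e) (coeffEmb Kbar jq)) := by
  have h := (modRel_series e he).map (qExpand Kbar d)
  rwa [qExpand_qExpand] at h

variable (p q : ℕ) [NeZero p] [NeZero q]

/-- `ModRel.of_map` for the inclusion `FN (p q) → Kbar((t))`; `coe_jF'`, `FNAdjoin.coe_jd'`. -/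
theorem modRel_J1_Jq (hq : q.Prime) : ModRel q (J1 p q) (Jq p q) := by
  refine ModRel.of_map (modularFunctionFieldBar (p * q)).val.toRingHom Subtype.val_injective ?_
  change ModRel q ((J1 p q : FN (p * q)) : LaurentSeries Kbar)
    ((Jq p q : FN (p * q)) : LaurentSeries Kbar)
  rw [J1, Jq, coe_jF', FNAdjoin.coe_jd']
  exact modRel_series q hq

theorem modRel_Jp_Jpq (hq : q.Prime) : ModRel q (Jp p q) (Jpq p q) := by
  refine ModRel.of_map (modularFunctionFieldBar (p * q)).val.toRingHom Subtype.val_injective ?_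
  change ModRel q ((Jp p q : FN (p * q)) : LaurentSeries Kbar)
    ((Jpq p q : FN (p * q)) : LaurentSeries Kbar)
  rw [Jp, Jpq, FNAdjoin.coe_jd', FNAdjoin.coe_jd']
  exact modRel_series' q p hq

theorem modRel_J1_Jp (hp : p.Prime) : ModRel p (J1 p q) (Jp p q) := by
  refine ModRel.of_map (modularFunctionFieldBar (p * q)).val.toRingHom Subtype.val_injective ?_
  change ModRel p ((J1 p q : FN (p * q)) : LaurentSeries Kbar)
    ((Jp p q : FN (p * q)) : LaurentSeries Kbar)
  rw [J1, Jp, coe_jF', FNAdjoin.coe_jd']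
  exact modRel_series p hp

theorem modRel_Jq_Jpq (hp : p.Prime) : ModRel p (Jq p q) (Jpq p q) := by
  refine ModRel.of_map (modularFunctionFieldBar (p * q)).val.toRingHom Subtype.val_injective ?_
  change ModRel p ((Jq p q : FN (p * q)) : LaurentSeries Kbar)
    ((Jpq p q : FN (p * q)) : LaurentSeries Kbar)
  rw [Jq, Jpq, FNAdjoin.coe_jd', FNAdjoin.coe_jd', qExpand_congr (mul_comm p q)]
  exact modRel_series' p q hp

end Fermat.Agent.S15.Outer
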