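import Fermat.Agent.S15.Outer.Model
import Fermat.Agent.S15.Outer.Phi
import Fermat.Agent.S15.Outer.NP.Type
import Fermat.Agent.S15.Red.Conc
import Fermat.Agent.S15.Outer.Disc.Core

/-!
# S15 / OUTER, block DISC: `T_q` (`q ≠ p` prime) preserves the discs around the two cusps; the model of a generator
-/

set_option autoImplicit false

noncomputable section

namespace Fermat.Agent.S15.Outer

open AlgebraicCurve ModularCurve Fermat.Agent.S24 Fermat.Agent.S37 Fermat.Agent.Lib.RR

variable {p : ℕ} [NeZero p]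

/-- **LEAF DISC-Z.**  By `Pres.of_single`: `x ∈ ZA p A`, `y` in the support of `heckeDiv p q (single x 1)`;
`exists_place_of_heckeDiv` gives `w` with `rbP w = x`, `raP w = y` (`pt x = single x 1`).
The four functions `J1, Jq, Jp, Jpq : FN (p q)` satisfy `modRel_J1_Jq`, `modRel_Jp_Jpq`, `modRel_J1_Jp`, `modRel_Jq_Jpq`.
* `x = zz p`: use `type_transfer` for the valuation `w.adicValuation` of `FN (p q)` (`ord = - log`): by `Red.cuspFacts` and
  `Place.ord_restrictAlong` (`ord_restrictAlong_prop_iff`, `bP_j`, `bP_jp`): `ord_w Jq < 0`, `p * ord_w Jpq = ord_w Jq`. So `ord_w J1 < 0`,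
  `p * ord_w Jp = ord_w J1`; hence `y` is a pole of `j`: `y = oo` or `y = zz` (`cuspFacts.pole_j`), and `y = oo` is excluded
  (`oo_j = -1`, `oo_jp = -p` would give `p * p = 1`).
* `IsPt p x a b`, `NearZero A p a b`: `Jq, Jpq` are regular at `w` with values `a, b` (`isPt_rbP_iff`); `J1`, `Jp` are regular at `w`
  (`ModRel.val_le_one` for `w.adicValuation`, `ModRel.symm`); let `a', b'` be their values (`S19.Weil.ev`, `ord_sub_ev_pos`), so
  `IsPt p y a' b'` (`isPt_raP_iff`).  The residue map `O_w → Kbar` is a ring homomorphism: `ModRel.of_map` (inclusion `O_w → FN (p q)`) and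
  `ModRel.map` give `ModRel q a' a`, `ModRel q b' b`, `ModRel p a' b'`, `ModRel p a b`.  `type_transfer` for `A.valuation`
  (`a ∉ A ↔ 1 < A.valuation a`: `ValuationSubring.valuation_le_one_iff`). -/
theorem presZ_hecke (hp : p.Prime) (q : ℕ) [NeZero q] (hq : q.Prime) (hqp : q ≠ p)
    (A : ValuationSubring Kbar) : Pres (ZA p A) (heckeDiv p q) := by
  refine Pres.of_single fun x hx y hy => ?_
  obtain ⟨w, rfl, rfl⟩ := exists_place_of_heckeDiv (Finsupp.mem_support_iff.mp hy)
  rcases hx with hx | ⟨a, b, hx, hn⟩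
  · exact Or.inl (core_zz hp hq hqp w hx)
  · obtain ⟨a', b', h1, h2, -, h3⟩ := core_pt hp hq hqp A w hx hn.1
    exact Or.inr ⟨a', b', h1, h2, h3 hn.2⟩

/-- **LEAF DISC-I.** Same proof with the other alternative of `type_transfer`. -/
theorem presI_hecke (hp : p.Prime) (q : ℕ) [NeZero q] (hq : q.Prime) (hqp : q ≠ p)
    (A : ValuationSubring Kbar) : Pres (IA p A) (heckeDiv p q) := by
  refine Pres.of_single fun x hx y hy => ?_
  obtain ⟨w, rfl, rfl⟩ := exists_place_of_heckeDiv (Finsupp.mem_support_iff.mp hy)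
  rcases hx with hx | ⟨a, b, hx, hn⟩
  · exact Or.inl (core_oo hp hq hqp w hx)
  · obtain ⟨a', b', h1, h2, h3, -⟩ := core_pt hp hq hqp A w hx hn.1
    exact Or.inr ⟨a', b', h1, h2, h3 hn.2⟩

/-- the model of a generator. -/
theorem model_hecke (hp : p.Prime) (q : Nat.Primes) (hqp : (q : ℕ) ≠ p) :
    ∃ (T : Dv p →+ Dv p) (ε : ℤ), Model (heckeOperatorBar p q) T ε := by
  haveI : NeZero (q : ℕ) := ⟨q.2.ne_zero⟩
  have hqN : ¬ (q : ℕ) ∣ p := fun h => hqp ((Nat.prime_dvd_prime_iff_eq q.2 hp).1 h)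
  refine ⟨heckeDiv p q, (q : ℤ) + 1, ?_, ?_, presZ_hecke hp q q.2 hqp, presI_hecke hp q q.2 hqp⟩
  · exact degree_heckeDiv p q q.2 hqN
  · intro D h h'
    exact (heckeOperatorBar_apply p q (Pic0.mk ⟨D, h⟩)).trans (heckeOperatorAlong_mk p q ⟨D, h⟩)

/-- every `t ∈ TTS p S` has a model. -/
theorem exists_model (hp : p.Prime) (S : Finset ℕ) (t : Module.End ℤ (JZero p)) (ht : t ∈ TTS p S) :
    ∃ (T : Dv p →+ Dv p) (ε : ℤ), Model t T ε :=
  exists_model_of_gen (model_hecke hp) S t ht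

end Fermat.Agent.S15.Outer
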