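import Fermat.Agent.S15.Outer.Main
import Fermat.Agent.S15.Outer.Disc
import Fermat.Agent.S15.Cusp.Inj
import Fermat.Agent.S15.Cusp.Genus

/-!
# S15 / OUTER: `KeyOfFin` (contract Z6)

Two interchangeable proofs: `keyOfFin_red` (models of the Hecke operators via block RED, `Outer/GenRed.lean`) and
`keyOfFin_np` (models via the Newton polygon of the modular equation, `Outer/Disc.lean`).
-/

set_option autoImplicit false
set_option linter.unusedSectionVars false

noncomputable section

namespace Fermat.Agent.S15.Outer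

open AlgebraicCurve ModularCurve Fermat.Agent.Lib.RR Fermat.Agent.GAL Fermat.Agent.GAL.RED
  Fermat.Agent.GAL.Hecke Fermat.Agent.GAL.Igusa Fermat.Agent.S24 Fermat.Agent.S37

theorem injC {p : ℕ} [NeZero p] (hp : p.Prime) : InjC p := by
  intro ℓ hℓ _ h5 A hA c _ _ hM _ hg hneat r hr n hn
  haveI := charP_residueField A hℓ hA
  exact Cusp.zsmul_cusp_eq_zero_of_mem_prinN hM hg hr hp hneat ℓ hℓ h5 n hn

theorem keyOfFin_of
    (hmod : ∀ (p : ℕ) [NeZero p], p.Prime → ∀ (S : Finset ℕ) (t : Module.End ℤ (JZero p)),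
      t ∈ TTS p S → ∃ (T : Dv p →+ Dv p) (ε : ℤ), ModelG (GS p S) t T ε) : KeyOfFin :=
  fun p _ hp hp' hFin =>
    keyAt_of hp (injC hp) (CuspAdm.exists_adm hp hp') (fun _ hx => CuspAdm.ptCls_zz_mem_JQ hp hx)
      (hmod p hp) hFin

/-- route RED. -/
theorem keyOfFin_red : KeyOfFin :=
  keyOfFin_of fun _ _ hp S t ht => exists_modelG hp S t ht

/-- route NP. -/
theorem keyOfFin_np : KeyOfFin :=
  keyOfFin_of fun _ _ hp S t ht => by
    obtain ⟨T, ε, h⟩ := exists_model hp S t ht
    exact ⟨T, ε, h.toG _⟩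

end Fermat.Agent.S15.Outer
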