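import Fermat.Agent.S15.Contracts
import Fermat.Agent.S24.FNAdjoin
import Fermat.Agent.S37.Main
import Fermat.Agent.S37.BetaDeg

/-!
# S15 / OUTER (block Z6, owner helper85): definitions and the formal part

`t ∈ TTS p S` has a *divisor level model* `T : Div →+ Div`, `ε : ℤ`:
`t [D] = [T D]`, `deg (T D) = ε deg D`, and for every valuation ring `A` of `Qbar` the map `T` preserves the divisors
supported on the `A`-adic disc `ZA A` around the cusp `0` and on the disc `IA A` around the cusp `∞`.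
-/

set_option autoImplicit false

noncomputable section

namespace Fermat.Agent.S15.Outer

open AlgebraicCurve ModularCurve Fermat.Agent.S24 Fermat.Agent.S37 Fermat.Agent.Lib.RR

variable (p : ℕ) [NeZero p]

/-- divisors of level `p`. -/
abbrev Dv : Type := Divisor Kbar (FN p)

/-- the `A`-adic disc around the cusp `0`. -/
def ZA (A : ValuationSubring Kbar) : Set (Place Kbar (FN p)) :=
  {x | x = zz p ∨ ∃ a b, IsPt p x a b ∧ NearZero A p a b}

/-- the `A`-adic disc around the cusp `∞`. -/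
def IA (A : ValuationSubring Kbar) : Set (Place Kbar (FN p)) :=
  {x | x = oo p ∨ ∃ a b, IsPt p x a b ∧ NearInf A p a b}

variable {p}

/-- `T` preserves the divisors supported on `S`. -/
def Pres {X : Type*} (S : Set X) (T : (X →₀ ℤ) →+ (X →₀ ℤ)) : Prop :=
  ∀ D : X →₀ ℤ, (↑D.support : Set X) ⊆ S → (↑(T D).support : Set X) ⊆ S

theorem Pres.of_single {X : Type*} {S : Set X} {T : (X →₀ ℤ) →+ (X →₀ ℤ)}
    (h : ∀ x ∈ S, (↑(T (Finsupp.single x 1)).support : Set X) ⊆ S) : Pres S T := by
  classical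
  intro D hD y hy
  have hE : D = D.sum fun Q n => n • Finsupp.single Q (1 : ℤ) := by
    conv_lhs => rw [← Finsupp.sum_single D]
    refine Finsupp.sum_congr fun Q _ => ?_
    rw [Finsupp.smul_single, smul_eq_mul, mul_one]
  rw [hE, Finsupp.sum, map_sum] at hy
  have hy' : (∑ Q ∈ D.support, T (D Q • Finsupp.single Q (1 : ℤ))) y ≠ 0 :=
    Finsupp.mem_support_iff.mp hy
  rw [Finsupp.finset_sum_apply] at hy'
  obtain ⟨Q, hQ, hne⟩ := Finset.exists_ne_zero_of_sum_ne_zero hy'
  refine h Q (hD hQ) ?_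
  rw [Finset.mem_coe, Finsupp.mem_support_iff]
  intro h0
  apply hne
  rw [map_zsmul, Finsupp.smul_apply, h0, smul_zero]

theorem Pres.smul_id {X : Type*} (S : Set X) (n : ℤ) :
    Pres S (n • AddMonoidHom.id (X →₀ ℤ)) := by
  intro D hD y hy
  apply hD
  rw [Finset.mem_coe, Finsupp.mem_support_iff] at hy ⊢
  intro h0
  apply hy
  rw [AddMonoidHom.smul_apply, AddMonoidHom.id_apply, Finsupp.smul_apply, h0, smul_zero]

theorem Pres.add {X : Type*} {S : Set X} {T T' : (X →₀ ℤ) →+ (X →₀ ℤ)} (h : Pres S T)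
    (h' : Pres S T') : Pres S (T + T') := by
  classical
  intro D hD y hy
  rw [Finset.mem_coe, Finsupp.mem_support_iff, AddMonoidHom.add_apply, Finsupp.add_apply] at hy
  by_cases h0 : T D y = 0
  · refine h' D hD ?_
    rw [Finset.mem_coe, Finsupp.mem_support_iff]
    intro h1
    exact hy (by rw [h0, h1, add_zero])
  · exact h D hD (by rw [Finset.mem_coe, Finsupp.mem_support_iff]; exact h0)

theorem Pres.comp {X : Type*} {S : Set X} {T T' : (X →₀ ℤ) →+ (X →₀ ℤ)} (h : Pres S T)
    (h' : Pres S T') : Pres S (T.comp T') :=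
  fun D hD => h (T' D) (h' D hD)

/-- the divisor level model of an endomorphism of `J₀(p)`. -/
structure Model (t : Module.End ℤ (JZero p)) (T : Dv p →+ Dv p) (ε : ℤ) : Prop where
  deg : ∀ D : Dv p, Divisor.degree (T D) = ε * Divisor.degree D
  cls : ∀ (D : Dv p) (h : D ∈ Divisor.degZero (K := Kbar) (F := FN p))
    (h' : T D ∈ Divisor.degZero (K := Kbar) (F := FN p)), t (Pic0.mk ⟨D, h⟩) = Pic0.mk ⟨T D, h'⟩
  presZ : ∀ A : ValuationSubring Kbar, Pres (ZA p A) T
  presI : ∀ A : ValuationSubring Kbar, Pres (IA p A) T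

theorem mem_degZero_iff (D : Dv p) :
    D ∈ Divisor.degZero (K := Kbar) (F := FN p) ↔ Divisor.degree D = 0 := Iff.rfl

theorem Model.mem_degZero {t : Module.End ℤ (JZero p)} {T : Dv p →+ Dv p} {ε : ℤ}
    (h : Model t T ε) {D : Dv p} (hD : D ∈ Divisor.degZero (K := Kbar) (F := FN p)) :
    T D ∈ Divisor.degZero (K := Kbar) (F := FN p) := by
  rw [mem_degZero_iff] at hD ⊢
  rw [h.deg, hD, mul_zero]

end Fermat.Agent.S15.Outer
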