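import Fermat.Agent.S15.Red.Top
import Fermat.Agent.S15.Red.Dual

/-!
# S15 / OUTER (Z6): (DICH) and (COMB)

* `dich` : a point `(a, b)` of `X₀(N)` (`N` prime) with `a ∉ A`, `A ∣ ℓ ≠ N`, is `NearInf` or `NearZero`.
* `comb_inf`, `comb_zero` : a point of `X₀(p q)` has four coordinates `a = j, b = j_p, a' = j_q, b' = j_{pq}`;
  if `(a, b)` is near `∞` (resp. `0`) at level `p`, so is `(a', b')`.
* `comb_inf_abs`, `comb_zero_abs` : the same combinatorics in an arbitrary commutative monoid (use `Multiplicative ℤ` for orders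
  at a place over a cusp); `comb_inf_int`, `comb_zero_int` : the additive version in `ℤ`.
-/

set_option autoImplicit false
set_option linter.unusedSectionVars false

noncomputable section

namespace Fermat.Agent.S15.Outer.Dich

open AlgebraicCurve ModularCurve Fermat.Agent.Lib.RR Fermat.Agent.GAL Fermat.Agent.GAL.RED
  Fermat.Agent.GAL.Hecke Fermat.Agent.GAL.Igusa Fermat.Agent.S24 Fermat.Agent.S19
  Fermat.Agent.S19.Weil Fermat.Agent.S37 Fermat.Agent.S17.Unr Fermat.Agent.S15.Red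

/-- **(DICH)** -/
theorem dich {p : ℕ} [NeZero p] {ℓ : ℕ} {A : ValuationSubring Kbar} (hp : p.Prime) (hℓ : ℓ.Prime)
    (hℓp : ℓ ≠ p) (hA : A.LiesOverPrime ℓ) {x : Place Kbar (FN p)} {a b : Kbar}
    (hx : IsPt p x a b) (ha : a ∉ A) : NearInf A p a b ∨ NearZero A p a b := by
  have hℓp' : ¬ ℓ ∣ p := fun h => hℓp ((Nat.prime_dvd_prime_iff_eq hℓ hp).1 h)
  refine with_red p hℓ hℓp' A hA ?_
  intro c _ _ hM _ r hr
  have C := cd p c A hM hp
  obtain ⟨h1, h2, h3⟩ := near_of_meter (f := jp p / jF p ^ p) hp hr C.f0_mem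
    (fun Q hQ => by
      have := C.f0_polesInt Q hQ
      rwa [redFN_A] at this)
    C.f0_ord_zz (by rw [C.ev_oo, map_one]) hx ha
  rcases lt_or_eq_of_le ((A.valuation_le_one_iff _).2 h1) with h | h
  · exact Or.inr (h3 h)
  · exact Or.inl (h2 h)

/-! ## the combinatorics -/

section abs

variable {M : Type*} [CommMonoid M] {t vb va' vb' : M} {p q : ℕ}

theorem comb_aux1 (hp : 2 ≤ p) (hq : 1 ≤ q) : p * (q * p) ≠ q := by
  intro h
  have h1 : q * 4 ≤ q * (p * p) := Nat.mul_le_mul_left q (Nat.mul_le_mul hp hp)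
  have h2 : p * (q * p) = q * (p * p) := by ring
  omega

theorem comb_aux2 (hp : 2 ≤ p) (X : ℕ) : p * X ≠ 1 := by
  intro h
  have := Nat.eq_one_of_mul_eq_one_right h
  omega

theorem comb_inf_abs (hinj : ∀ m n : ℕ, t ^ m = t ^ n → m = n) (hp : 2 ≤ p) (hq : 1 ≤ q)
    (hpq : p ≠ q) (hb : vb = t ^ p) (h1 : va' = t ^ q ∨ va' ^ q = t)
    (h2 : vb' = vb ^ q ∨ vb' ^ q = vb) (h3 : vb' = va' ^ p ∨ vb' ^ p = va') : vb' = va' ^ p := by
  rcases h3 with h3 | h3
  · exact h3
  exfalso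
  subst hb
  rcases h1 with h1 | h1 <;> rcases h2 with h2 | h2
  · -- `s ^ p = t ^ q`, `s = t ^ (p q)`
    rw [h2, h1, ← pow_mul, ← pow_mul] at h3
    have := hinj _ _ h3
    exact comb_aux1 hp hq this
  · -- `s ^ p = t ^ q`, `s ^ q = t ^ p`
    have e1 : vb' ^ (p * q) = t ^ (q * q) := by rw [pow_mul, h3, h1, ← pow_mul]
    have e2 : vb' ^ (p * q) = t ^ (p * p) := by rw [mul_comm, pow_mul, h2, ← pow_mul]
    have := hinj _ _ (e1.symm.trans e2)
    exact hpq (Nat.mul_self_inj.1 this).symm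
  · -- `s ^ (p q) = t`, `s = t ^ (p q)`
    have e1 : vb' ^ (p * q) = t ^ 1 := by rw [pow_mul, h3, h1, pow_one]
    rw [h2, ← pow_mul, ← pow_mul] at e1
    have := hinj _ _ e1
    exact comb_aux2 hp _ this
  · -- `s ^ (p q) = t`, `s ^ q = t ^ p`
    have e1 : vb' ^ (p * q) = t ^ 1 := by rw [pow_mul, h3, h1, pow_one]
    have e2 : vb' ^ (p * q) = t ^ (p * p) := by rw [mul_comm, pow_mul, h2, ← pow_mul]
    have := hinj _ _ (e1.symm.trans e2)
    exact comb_aux2 hp _ this.symm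

theorem comb_zero_abs {u va : M} (hinj : ∀ m n : ℕ, u ^ m = u ^ n → m = n) (hp : 2 ≤ p)
    (hq : 1 ≤ q) (hpq : p ≠ q) (ha : u ^ p = va) (h1 : va' = va ^ q ∨ va' ^ q = va)
    (h2 : vb' = u ^ q ∨ vb' ^ q = u) (h3 : vb' = va' ^ p ∨ vb' ^ p = va') : vb' ^ p = va' := by
  rcases h3 with h3 | h3
  swap
  · exact h3
  exfalso
  subst ha
  rcases h1 with h1 | h1 <;> rcases h2 with h2 | h2
  · -- `w = u ^ (p q)`, `s = w ^ p`, `s = u ^ q`
    rw [h2, h1, ← pow_mul, ← pow_mul] at h3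
    have := hinj _ _ h3
    exact comb_aux1 hp hq this.symm
  · -- `s ^ q = u`
    have e1 : vb' ^ q = u ^ 1 := by rw [h2, pow_one]
    rw [h3, h1, ← pow_mul, ← pow_mul, ← pow_mul] at e1
    have := hinj _ _ e1
    exact comb_aux2 hp _ this
  · -- `w ^ q = u ^ p`, `s = w ^ p`, `s = u ^ q`
    have e1 : vb' ^ q = u ^ (p * p) := by rw [h3, ← pow_mul, mul_comm, pow_mul, h1, ← pow_mul]
    rw [h2, ← pow_mul] at e1
    have := hinj _ _ e1
    exact hpq (Nat.mul_self_inj.1 this).symm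
  · have e1 : vb' ^ q = u ^ (p * p) := by rw [h3, ← pow_mul, mul_comm, pow_mul, h1, ← pow_mul]
    rw [h2] at e1
    have := hinj 1 (p * p) (by rw [pow_one]; exact e1)
    exact comb_aux2 hp _ this.symm

end abs

/-! ### valuations -/

section val

variable {A : ValuationSubring Kbar} {p q : ℕ} {a b a' b' : Kbar}

theorem one_lt_of_not_mem {a : Kbar} (ha : a ∉ A) : 1 < A.valuation a := by
  rw [← not_le, A.valuation_le_one_iff]
  exact ha

theorem pow_inj_of_one_lt {Γ : Type*} [LinearOrderedCommGroupWithZero Γ] {t : Γ} (ht : 1 < t) :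
    ∀ m n : ℕ, t ^ m = t ^ n → m = n := fun _ _ h =>
  pow_right_injective₀ (lt_trans zero_lt_one ht) ht.ne' h

theorem nearInf_not_mem_right (hp : p ≠ 0) (h : NearInf A p a b) : b ∉ A := by
  rw [← A.valuation_le_one_iff, not_le, h.2]
  exact one_lt_pow₀ (one_lt_of_not_mem h.1) hp

theorem nearZero_not_mem_right (h : NearZero A p a b) : b ∉ A := by
  intro hb
  have h1 := one_lt_of_not_mem h.1
  rw [← h.2] at h1
  exact absurd (pow_le_one₀ zero_le ((A.valuation_le_one_iff _).2 hb)) (not_le.2 h1)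

/-- **(COMB)** near `∞`. -/
theorem comb_inf (hp : 2 ≤ p) (hq : 1 ≤ q) (hpq : p ≠ q) (h : NearInf A p a b)
    (h1 : NearInf A q a a' ∨ NearZero A q a a') (h2 : NearInf A q b b' ∨ NearZero A q b b')
    (h3 : NearInf A p a' b' ∨ NearZero A p a' b') : NearInf A p a' b' := by
  have ha' : a' ∉ A := by
    rcases h3 with h3 | h3
    · exact h3.1
    · exact h3.1
  refine ⟨ha', comb_inf_abs (pow_inj_of_one_lt (one_lt_of_not_mem h.1)) hp hq hpq h.2
    (h1.imp (fun h => h.2) fun h => h.2) (h2.imp (fun h => h.2) fun h => h.2)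
    (h3.imp (fun h => h.2) fun h => h.2)⟩

/-- **(COMB)** near `0`. -/
theorem comb_zero (hp : 2 ≤ p) (hq : 1 ≤ q) (hpq : p ≠ q) (h : NearZero A p a b)
    (h1 : NearInf A q a a' ∨ NearZero A q a a') (h2 : NearInf A q b b' ∨ NearZero A q b b')
    (h3 : NearInf A p a' b' ∨ NearZero A p a' b') : NearZero A p a' b' := by
  have ha' : a' ∉ A := by
    rcases h3 with h3 | h3
    · exact h3.1
    · exact h3.1
  refine ⟨ha', comb_zero_abs (pow_inj_of_one_lt (one_lt_of_not_mem (nearZero_not_mem_right h))) hp hq hpq h.2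
    (h1.imp (fun h => h.2) fun h => h.2) (h2.imp (fun h => h.2) fun h => h.2)
    (h3.imp (fun h => h.2) fun h => h.2)⟩

end val

/-! ### orders -/

section int

variable {p q : ℕ} {t vb va' vb' : ℤ}

theorem ofAdd_pow_int (n : ℕ) (x : ℤ) :
    Multiplicative.ofAdd x ^ n = Multiplicative.ofAdd ((n : ℤ) * x) := by
  rw [← ofAdd_nsmul, nsmul_eq_mul]

theorem ofAdd_pow_inj {t : ℤ} (ht : t ≠ 0) (m n : ℕ)
    (h : Multiplicative.ofAdd t ^ m = Multiplicative.ofAdd t ^ n) : m = n := by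
  rw [ofAdd_pow_int, ofAdd_pow_int] at h
  exact_mod_cast mul_right_cancel₀ ht (Multiplicative.ofAdd.injective h)

theorem comb_inf_int (ht : t ≠ 0) (hp : 2 ≤ p) (hq : 1 ≤ q) (hpq : p ≠ q) (hb : vb = p * t)
    (h1 : va' = q * t ∨ q * va' = t) (h2 : vb' = q * vb ∨ q * vb' = vb)
    (h3 : vb' = p * va' ∨ p * vb' = va') : vb' = p * va' := by
  have key := comb_inf_abs (M := Multiplicative ℤ) (t := Multiplicative.ofAdd t)
    (vb := Multiplicative.ofAdd vb) (va' := Multiplicative.ofAdd va')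
    (vb' := Multiplicative.ofAdd vb') (p := p) (q := q) (ofAdd_pow_inj ht) hp hq hpq
    (by rw [ofAdd_pow_int, hb])
    (h1.imp (fun h => by rw [ofAdd_pow_int, h]) fun h => by rw [ofAdd_pow_int, h])
    (h2.imp (fun h => by rw [ofAdd_pow_int, h]) fun h => by rw [ofAdd_pow_int, h])
    (h3.imp (fun h => by rw [ofAdd_pow_int, h]) fun h => by rw [ofAdd_pow_int, h])
  rw [ofAdd_pow_int] at key
  exact Multiplicative.ofAdd.injective key

theorem comb_zero_int {u va : ℤ} (hu : u ≠ 0) (hp : 2 ≤ p) (hq : 1 ≤ q) (hpq : p ≠ q)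
    (ha : p * u = va) (h1 : va' = q * va ∨ q * va' = va) (h2 : vb' = q * u ∨ q * vb' = u)
    (h3 : vb' = p * va' ∨ p * vb' = va') : p * vb' = va' := by
  have key := comb_zero_abs (M := Multiplicative ℤ) (u := Multiplicative.ofAdd u)
    (va := Multiplicative.ofAdd va) (va' := Multiplicative.ofAdd va')
    (vb' := Multiplicative.ofAdd vb') (p := p) (q := q) (ofAdd_pow_inj hu) hp hq hpq
    (by rw [ofAdd_pow_int, ha])
    (h1.imp (fun h => by rw [ofAdd_pow_int, h]) fun h => by rw [ofAdd_pow_int, h])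
    (h2.imp (fun h => by rw [ofAdd_pow_int, h]) fun h => by rw [ofAdd_pow_int, h])
    (h3.imp (fun h => by rw [ofAdd_pow_int, h]) fun h => by rw [ofAdd_pow_int, h])
  rw [ofAdd_pow_int] at key
  exact Multiplicative.ofAdd.injective key

end int

/-! ## the final form: the four coordinates of a point of `X₀(p q)` -/

section quad

variable {p q : ℕ} [NeZero p] [NeZero q] {ℓ : ℕ} {A : ValuationSubring Kbar} {a b a' b' : Kbar}
  {y : Place Kbar (FN p)} {u v : Place Kbar (FN q)}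

theorem dich_swap (hq : q.Prime) (hℓ : ℓ.Prime) (hℓq : ℓ ≠ q) (hA : A.LiesOverPrime ℓ)
    (hu : IsPt q u a' a) (ha : a ∉ A) : NearInf A q a a' ∨ NearZero A q a a' := by
  obtain ⟨D, hD, -⟩ := exists_dual hq
  exact dich hq hℓ hℓq hA (hD u a' a hu) ha

/-- **(H2)** `NearInf` is preserved by the Hecke correspondence `T_q`. -/
theorem nearInf_of_quad (hp : p.Prime) (hq : q.Prime) (hpq : p ≠ q) (hℓ : ℓ.Prime) (hℓp : ℓ ≠ p)
    (hℓq : ℓ ≠ q) (hA : A.LiesOverPrime ℓ) (hy : IsPt p y a' b') (hu : IsPt q u a' a)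
    (hv : IsPt q v b' b) (h : NearInf A p a b) : NearInf A p a' b' := by
  have h1 := dich_swap hq hℓ hℓq hA hu h.1
  have h2 := dich_swap hq hℓ hℓq hA hv (nearInf_not_mem_right hp.ne_zero h)
  have ha' : a' ∉ A := by
    rcases h1 with h1 | h1
    · exact nearInf_not_mem_right hq.ne_zero h1
    · exact nearZero_not_mem_right h1
  exact comb_inf hp.two_le hq.one_lt.le hpq h h1 h2 (dich hp hℓ hℓp hA hy ha')

/-- **(H1)** `NearZero` is preserved by the Hecke correspondence `T_q`. -/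
theorem nearZero_of_quad (hp : p.Prime) (hq : q.Prime) (hpq : p ≠ q) (hℓ : ℓ.Prime) (hℓp : ℓ ≠ p)
    (hℓq : ℓ ≠ q) (hA : A.LiesOverPrime ℓ) (hy : IsPt p y a' b') (hu : IsPt q u a' a)
    (hv : IsPt q v b' b) (h : NearZero A p a b) : NearZero A p a' b' := by
  have h1 := dich_swap hq hℓ hℓq hA hu h.1
  have h2 := dich_swap hq hℓ hℓq hA hv (nearZero_not_mem_right h)
  have ha' : a' ∉ A := by
    rcases h1 with h1 | h1
    · exact nearInf_not_mem_right hq.ne_zero h1
    · exact nearZero_not_mem_right h1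
  exact comb_zero hp.two_le hq.one_lt.le hpq h h1 h2 (dich hp hℓ hℓp hA hy ha')

end quad

end Fermat.Agent.S15.Outer.Dich

end
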