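import Fermat.Agent.S15.Outer.Model
import Fermat.Agent.S15.Red.Hecke

/-!
# S15 / OUTER: the divisor level model of `t ∈ TTS p S`, via block RED (no modular equation)

`ModelG G t T ε` = helper85's `Model` with the disc preservation restricted to the valuation rings `A` with `G A`.
`GS p S A` : `A = ⊤` or `A` lies over a prime `ℓ ∈ S`, `ℓ ≠ p`.
`exists_modelG` : every `t ∈ TTS p S` has a model for `GS p S`.
-/

set_option autoImplicit false

noncomputable section

namespace Fermat.Agent.S15.Outer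

open AlgebraicCurve ModularCurve Fermat.Agent.S24 Fermat.Agent.S37 Fermat.Agent.Lib.RR

variable {p : ℕ} [NeZero p]

/-- the divisor level model of an endomorphism of `J₀(p)`, relative to a class `G` of valuation rings. -/
structure ModelG (G : ValuationSubring Kbar → Prop) (t : Module.End ℤ (JZero p))
    (T : Dv p →+ Dv p) (ε : ℤ) : Prop where
  deg : ∀ D : Dv p, Divisor.degree (T D) = ε * Divisor.degree D
  cls : ∀ (D : Dv p) (h : D ∈ Divisor.degZero (K := Kbar) (F := FN p))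
    (h' : T D ∈ Divisor.degZero (K := Kbar) (F := FN p)), t (Pic0.mk ⟨D, h⟩) = Pic0.mk ⟨T D, h'⟩
  presZ : ∀ A : ValuationSubring Kbar, G A → Pres (ZA p A) T
  presI : ∀ A : ValuationSubring Kbar, G A → Pres (IA p A) T

theorem Model.toG {t : Module.End ℤ (JZero p)} {T : Dv p →+ Dv p} {ε : ℤ} (h : Model t T ε)
    (G : ValuationSubring Kbar → Prop) : ModelG G t T ε :=
  ⟨h.deg, h.cls, fun A _ => h.presZ A, fun A _ => h.presI A⟩

variable {G : ValuationSubring Kbar → Prop}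

theorem ModelG.mem_degZero {t : Module.End ℤ (JZero p)} {T : Dv p →+ Dv p} {ε : ℤ}
    (h : ModelG G t T ε) {D : Dv p} (hD : D ∈ Divisor.degZero (K := Kbar) (F := FN p)) :
    T D ∈ Divisor.degZero (K := Kbar) (F := FN p) := by
  rw [mem_degZero_iff] at hD ⊢
  rw [h.deg, hD, mul_zero]

theorem ModelG.algebraMap (n : ℤ) :
    ModelG G (algebraMap ℤ (Module.End ℤ (JZero p)) n) (n • AddMonoidHom.id (Dv p)) n :=
  (Model.algebraMap n).toG G

theorem ModelG.add {t t' : Module.End ℤ (JZero p)} {T T' : Dv p →+ Dv p} {ε ε' : ℤ}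
    (h : ModelG G t T ε) (h' : ModelG G t' T' ε') : ModelG G (t + t') (T + T') (ε + ε') where
  deg D := by
    rw [AddMonoidHom.add_apply, map_add, h.deg, h'.deg, add_mul]
  cls D hD hD' := by
    rw [LinearMap.add_apply, h.cls D hD (h.mem_degZero hD), h'.cls D hD (h'.mem_degZero hD),
      ← Pic0.mk_add]
    rfl
  presZ A hA := (h.presZ A hA).add (h'.presZ A hA)
  presI A hA := (h.presI A hA).add (h'.presI A hA)

theorem ModelG.mul {t t' : Module.End ℤ (JZero p)} {T T' : Dv p →+ Dv p} {ε ε' : ℤ}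
    (h : ModelG G t T ε) (h' : ModelG G t' T' ε') : ModelG G (t * t') (T.comp T') (ε * ε') where
  deg D := by
    rw [AddMonoidHom.comp_apply, h.deg, h'.deg, mul_assoc]
  cls D hD hD' := by
    rw [Module.End.mul_apply, h'.cls D hD (h'.mem_degZero hD),
      h.cls (T' D) (h'.mem_degZero hD) (h.mem_degZero (h'.mem_degZero hD))]
    rfl
  presZ A hA := (h.presZ A hA).comp (h'.presZ A hA)
  presI A hA := (h.presI A hA).comp (h'.presI A hA)

/-- the formal induction. -/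
theorem exists_modelG_of_gen (S : Finset ℕ)
    (hgen : ∀ q : Nat.Primes, (q : ℕ) ≠ p → (q : ℕ) ∉ S →
      ∃ (T : Dv p →+ Dv p) (ε : ℤ), ModelG G (heckeOperatorBar p q) T ε)
    (t : Module.End ℤ (JZero p)) (ht : t ∈ TTS p S) :
    ∃ (T : Dv p →+ Dv p) (ε : ℤ), ModelG G t T ε := by
  unfold TTS at ht
  induction ht using Algebra.adjoin_induction with
  | mem x hx =>
    obtain ⟨q, hq, hqS, rfl⟩ := hx
    exact hgen q hq hqS
  | algebraMap n => exact ⟨_, _, ModelG.algebraMap n⟩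
  | add x y _ _ hx hy =>
    obtain ⟨T, ε, h⟩ := hx
    obtain ⟨T', ε', h'⟩ := hy
    exact ⟨_, _, h.add h'⟩
  | mul x y _ _ hx hy =>
    obtain ⟨T, ε, h⟩ := hx
    obtain ⟨T', ε', h'⟩ := hy
    exact ⟨_, _, h.mul h'⟩

/-- the good valuation rings. -/
def GS (p : ℕ) (S : Finset ℕ) (A : ValuationSubring Kbar) : Prop :=
  A = ⊤ ∨ ∃ ℓ ∈ S, ℓ.Prime ∧ ℓ ≠ p ∧ A.LiesOverPrime ℓ

theorem isPt_iff {x : Place Kbar (FN p)} {a b : Kbar} : IsPt p x a b ↔ S15.IsPt p x a b :=
  ⟨fun h => ⟨h.ha, h.hb⟩, fun h => ⟨h.ha, h.hb⟩⟩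

theorem ZA_eq (A : ValuationSubring Kbar) : ZA p A = Red.setZ A p := by
  ext x
  constructor
  · rintro (h | ⟨a, b, h1, h2⟩)
    · exact Or.inl h
    · exact Or.inr ⟨a, b, isPt_iff.1 h1, h2⟩
  · rintro (h | ⟨a, b, h1, h2⟩)
    · exact Or.inl h
    · exact Or.inr ⟨a, b, isPt_iff.2 h1, h2⟩

theorem IA_eq (A : ValuationSubring Kbar) : IA p A = Red.setI A p := by
  ext x
  constructor
  · rintro (h | ⟨a, b, h1, h2⟩)
    · exact Or.inl h
    · exact Or.inr ⟨a, b, isPt_iff.1 h1, h2⟩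
  · rintro (h | ⟨a, b, h1, h2⟩)
    · exact Or.inl h
    · exact Or.inr ⟨a, b, isPt_iff.2 h1, h2⟩

theorem pres_iff {S : Set (Place Kbar (FN p))} {T : Dv p →+ Dv p} :
    Pres S T ↔ ∀ D, D ∈ Red.SuppOn S → T D ∈ Red.SuppOn S := by
  constructor
  · intro h D hD x hx
    refine h D ?_ (Finset.mem_coe.2 (Finsupp.mem_support_iff.2 hx))
    intro y hy
    exact hD y (Finsupp.mem_support_iff.1 (Finset.mem_coe.1 hy))
  · intro h D hD x hx
    refine h D ?_ x (Finsupp.mem_support_iff.1 (Finset.mem_coe.1 hx))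
    intro y hy
    exact hD (Finset.mem_coe.2 (Finsupp.mem_support_iff.2 hy))

theorem setZ_top : Red.setZ ⊤ p = {zz p} := by
  ext x
  constructor
  · rintro (h | ⟨a, b, -, h2⟩)
    · exact h
    · exact absurd (ValuationSubring.mem_top a) h2.1
  · intro h
    exact Or.inl h

theorem setI_top : Red.setI ⊤ p = {oo p} := by
  ext x
  constructor
  · rintro (h | ⟨a, b, -, h2⟩)
    · exact h
    · exact absurd (ValuationSubring.mem_top a) h2.1
  · intro h
    exact Or.inl h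

/-- **The generators.** -/
theorem modelG_hecke (hp : p.Prime) (S : Finset ℕ) (q : Nat.Primes) (hq : (q : ℕ) ≠ p)
    (hqS : (q : ℕ) ∉ S) :
    haveI : NeZero (q : ℕ) := ⟨q.2.ne_zero⟩
    ModelG (GS p S) (heckeOperatorBar p q) (heckeDiv p q) ((q : ℤ) + 1) := by
  haveI : NeZero (q : ℕ) := ⟨q.2.ne_zero⟩
  have hqp : ¬ (q : ℕ) ∣ p := fun h => hq ((Nat.prime_dvd_prime_iff_eq q.2 hp).1 h)
  refine ⟨degree_heckeDiv p q q.2 hqp, ?_, ?_, ?_⟩
  · intro D h h'
    exact heckeOperatorAlong_mk p q ⟨D, h⟩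
  · rintro A (rfl | ⟨ℓ, hℓS, hℓ, hℓp, hA⟩)
    · rw [ZA_eq, setZ_top, pres_iff]
      intro D hD
      refine Red.heckeDiv_mem_SuppOn ?_ hD
      intro y hy
      exact (Red.hecke_cusp hp q.2 (Ne.symm hq) y).1 hy
    · rw [ZA_eq, pres_iff]
      intro D hD
      exact Red.heckeDiv_mem_DiscZ hp q.2 (Ne.symm hq) hℓ hℓp (fun h => hqS (h ▸ hℓS)) hA hD
  · rintro A (rfl | ⟨ℓ, hℓS, hℓ, hℓp, hA⟩)
    · rw [IA_eq, setI_top, pres_iff]
      intro D hD
      refine Red.heckeDiv_mem_SuppOn ?_ hD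
      intro y hy
      exact (Red.hecke_cusp hp q.2 (Ne.symm hq) y).2 hy
    · rw [IA_eq, pres_iff]
      intro D hD
      exact Red.heckeDiv_mem_DiscI hp q.2 (Ne.symm hq) hℓ hℓp (fun h => hqS (h ▸ hℓS)) hA hD

/-- **Every `t ∈ TTS p S` has a divisor level model** preserving the `A`-adic discs for `A` over the primes of `S`. -/
theorem exists_modelG (hp : p.Prime) (S : Finset ℕ) (t : Module.End ℤ (JZero p))
    (ht : t ∈ TTS p S) : ∃ (T : Dv p →+ Dv p) (ε : ℤ), ModelG (GS p S) t T ε :=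
  exists_modelG_of_gen S (fun q hq hqS => ⟨_, _, modelG_hecke hp S q hq hqS⟩) t ht

end Fermat.Agent.S15.Outer
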