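/-
S15, block OUTER (Z6), sub-block QUAD, part 2 (helper62).

* `heckeDiv_isPt`  : a point `y` of `T_q (x)`, `x = (a, b)` non cuspidal, is a non cuspidal point `(a', b')`, and
                     `(a', a)`, `(b', b)` are points of `X₀(q)`.
* `heckeDiv_oo`, `heckeDiv_zz` : `T_q (∞) = (q + 1) (∞)`, `T_q (0) = (q + 1) (0)`.
-/
import Fermat.Agent.S15.Outer.Quad
import Fermat.Agent.GAL.FF.Corollaries

set_option autoImplicit false
set_option linter.unusedSectionVars false

noncomputable section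

namespace Fermat.Agent.S15.Outer

open AlgebraicCurve ModularCurve Fermat.Agent.S24 Fermat.Agent.GAL Fermat.Agent.GAL.Hecke
  Fermat.Agent.S37 Fermat.Agent.Lib.RR Fermat.Agent.DR.Gal Fermat.Agent.S15.Red

/-! ### level `p` -/

section one

variable {p : ℕ} [NeZero p] (hp : p.Prime)

include hp in
theorem pole_iff (Q : Place Kbar (FN p)) : Q.ord (jF p) < 0 ↔ Q.ord (jp p) < 0 := by
  have hc := cuspFacts p hp
  have hp0 : (0 : ℤ) < p := by exact_mod_cast hp.pos
  constructor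
  · intro h
    rcases hc.pole_j Q h with rfl | rfl
    · rw [hc.oo_jp]; omega
    · rw [hc.zz_jp]; omega
  · intro h
    rcases hc.pole_jp Q h with rfl | rfl
    · rw [hc.oo_j]; omega
    · rw [hc.zz_j]; omega

theorem jF_ne_const (a : Kbar) : jF p ≠ algebraMap Kbar (FN p) a := by
  intro h
  have h1 := oo_ord_jF p
  rw [h, Basic_ord_algebraMap] at h1
  omega

theorem jp_ne_const (a : Kbar) : jp p ≠ algebraMap Kbar (FN p) a := by
  intro h
  have h1 := oo_ord_jp p
  rw [h, Basic_ord_algebraMap] at h1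
  have : (p : ℤ) ≠ 0 := by exact_mod_cast NeZero.ne p
  omega

theorem not_pole_of_sub_pos {F : Type*} [Field F] [Algebra Kbar F] [Lib.RR.IsFF Kbar F] (Q : Place Kbar F) {f : F} {a : Kbar}
    (h : 0 < Q.ord (f - algebraMap Kbar F a)) : 0 ≤ Q.ord f := by
  have h1 : f - algebraMap Kbar F a ∈ Q.toValuationSubring :=
    (S19.Weil.mem_iff_ord Q _).2 (Or.inr h.le)
  have h2 : f ∈ Q.toValuationSubring := by
    have := add_mem h1 (S19.Weil.Ev_algebraMap_mem Q a)
    rwa [sub_add_cancel] at this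
  rcases (S19.Weil.mem_iff_ord Q f).1 h2 with rfl | h3
  · rw [Place.ord_zero]
  · exact h3

include hp in
/-- a place which is not a pole of `j` is a point `(a, b)`. -/
theorem exists_isPt (Q : Place Kbar (FN p)) (h : 0 ≤ Q.ord (jF p)) : ∃ a b : Kbar, IsPt p Q a b := by
  have h' : 0 ≤ Q.ord (jp p) := by
    rw [← not_lt, ← pole_iff hp, not_lt]; exact h
  obtain ⟨a, ha⟩ := RED.exists_eval Q h
  obtain ⟨b, hb⟩ := RED.exists_eval Q h'
  exact ⟨a, b, ha.resolve_left (jF_ne_const a), hb.resolve_left (jp_ne_const b)⟩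

end one

/-! ### level `p q` -/

variable {p q : ℕ} [NeZero p] [NeZero q] (hp : p.Prime) (hq : q.Prime)

section poles

variable (w : Place Kbar (FN (p * q)))

theorem raP_ord_j_neg : (raP w).ord (jF p) < 0 ↔ w.ord (J1 p q) < 0 := by
  rw [← aP_j]; exact ord_restrictAlong_neg_iff _ _ w _
theorem raP_ord_jp_neg : (raP w).ord (jp p) < 0 ↔ w.ord (Jp p q) < 0 := by
  rw [← aP_jp]; exact ord_restrictAlong_neg_iff _ _ w _
theorem rbP_ord_j_neg : (rbP w).ord (jF p) < 0 ↔ w.ord (Jq p q) < 0 := by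
  rw [← bP_j]; exact ord_restrictAlong_neg_iff _ _ w _
theorem rbP_ord_jp_neg : (rbP w).ord (jp p) < 0 ↔ w.ord (Jpq p q) < 0 := by
  rw [← bP_jp]; exact ord_restrictAlong_neg_iff _ _ w _
theorem raQ_ord_j_neg : (raQ w).ord (jF q) < 0 ↔ w.ord (J1 p q) < 0 := by
  rw [← aQ_j]; exact ord_restrictAlong_neg_iff _ _ w _
theorem raQ_ord_jq_neg : (raQ w).ord (jp q) < 0 ↔ w.ord (Jq p q) < 0 := by
  rw [← aQ_jq]; exact ord_restrictAlong_neg_iff _ _ w _
theorem rbQ_ord_j_neg : (rbQ w).ord (jF q) < 0 ↔ w.ord (Jp p q) < 0 := by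
  rw [← bQ_j]; exact ord_restrictAlong_neg_iff _ _ w _
theorem rbQ_ord_jq_neg : (rbQ w).ord (jp q) < 0 ↔ w.ord (Jpq p q) < 0 := by
  rw [← bQ_jq]; exact ord_restrictAlong_neg_iff _ _ w _

include hq in
theorem pole_J1_iff_Jq : w.ord (J1 p q) < 0 ↔ w.ord (Jq p q) < 0 := by
  exact (raQ_ord_j_neg w).symm.trans ((pole_iff hq _).trans (raQ_ord_jq_neg w))

end poles

include hp hq in
/-- **(Q1)** -/
theorem heckeDiv_isPt {x y : Place Kbar (FN p)} (h : heckeDiv p q (pt x) y ≠ 0) {a b : Kbar}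
    (hx : IsPt p x a b) :
    ∃ (a' b' : Kbar) (u v : Place Kbar (FN q)), IsPt p y a' b' ∧ IsPt q u a' a ∧ IsPt q v b' b := by
  obtain ⟨w, rfl, rfl⟩ := exists_place_of_heckeDiv h
  have hxw := (isPt_rbP_iff w a b).1 hx
  have h1 : 0 ≤ (raP w).ord (jF p) := by
    rw [← not_lt, raP_ord_j_neg, pole_J1_iff_Jq hq, not_lt]
    exact not_pole_of_sub_pos w hxw.1
  obtain ⟨a', b', hy⟩ := exists_isPt hp (raP w) h1
  have hyw := (isPt_raP_iff w a' b').1 hy
  exact ⟨a', b', raQ w, rbQ w, hy, (isPt_raQ_iff w a' a).2 ⟨hyw.1, hxw.1⟩,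
    (isPt_rbQ_iff w b' b).2 ⟨hyw.2, hxw.2⟩⟩

/-! ### the cusps -/

/-- the combinatorics of the four orders at a cusp of `X₀(p q)`. -/
theorem comb_cusp (P Q n1 np nq npq : ℤ) (hP : 2 ≤ P) (hQ : 2 ≤ Q) (hPQ : P ≠ Q) (h1 : n1 < 0)
    (hx : npq = P * nq) (hu : nq = Q * n1 ∨ n1 = Q * nq) (hv : npq = Q * np ∨ np = Q * npq) :
    n1 ≠ P * np := by
  intro hy
  have hP0 : P ≠ 0 := by omega
  have hQ0 : Q ≠ 0 := by omega
  have hn1 : n1 ≠ 0 := by omega
  have key : ∀ c : ℤ, 4 ≤ c → n1 = c * n1 → False := by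
    intro c hc h
    have : n1 * (c - 1) = 0 := by linear_combination -h
    rcases mul_eq_zero.1 this with h' | h'
    · exact hn1 h'
    · omega
  have hPP : 4 ≤ P * P := by nlinarith
  have hQQ : 4 ≤ Q * Q := by nlinarith
  rcases hu with hu | hu <;> rcases hv with hv | hv
  · -- nq = Q n1, npq = Q np
    have h2 : np = P * n1 := by
      apply mul_left_cancel₀ hQ0
      linear_combination -hv + hx + P * hu
    exact key (P * P) hPP (by linear_combination hy + P * h2)
  · -- nq = Q n1, np = Q npq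
    refine key (P * P * (Q * Q)) (by nlinarith) ?_
    linear_combination hy + P * hv + P * Q * hx + P * Q * P * hu
  · -- n1 = Q nq, npq = Q np
    have hnp : np ≠ 0 := by
      rintro rfl
      exact hn1 (by rw [hy, mul_zero])
    have h2 : (Q * Q - P * P) * np = 0 := by
      have h3 : P * n1 = Q * (Q * np) := by linear_combination P * hu - Q * hx + Q * hv
      linear_combination -h3 + P * hy
    rcases mul_eq_zero.1 h2 with h3 | h3
    · have h4 : (Q - P) * (Q + P) = 0 := by linear_combination h3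
      rcases mul_eq_zero.1 h4 with h5 | h5
      · exact hPQ (by omega)
      · omega
    · exact hnp h3
  · -- n1 = Q nq, np = Q npq
    have hnq : nq ≠ 0 := by
      rintro rfl
      exact hn1 (by rw [hu, mul_zero])
    have h2 : Q * nq * (P * P - 1) = 0 := by
      linear_combination hu - hy - P * hv - P * Q * hx
    rcases mul_eq_zero.1 h2 with h3 | h3
    · exact (mul_ne_zero hQ0 hnq) h3
    · nlinarith

section cusp

variable (w : Place Kbar (FN (p * q)))

include hp in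
theorem raP_cases (h : w.ord (J1 p q) < 0) :
    (raP w = oo p ∧ w.ord (Jp p q) = p * w.ord (J1 p q)) ∨
      (raP w = zz p ∧ w.ord (J1 p q) = p * w.ord (Jp p q)) := by
  have hc := cuspFacts p hp
  rcases hc.pole_j _ ((raP_ord_j_neg w).2 h) with h1 | h1
  · left
    refine ⟨h1, ?_⟩
    have := (ord_restrictAlong_prop_iff (aP p q) (integral_aP p q) w (jp p) (jF p) 1 p).1 (by
      show 1 * (raP w).ord (jp p) = p * (raP w).ord (jF p)
      rw [h1, hc.oo_jp, hc.oo_j]; ring)
    rw [aP_jp, aP_j, one_mul] at this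
    exact this
  · right
    refine ⟨h1, ?_⟩
    have := (ord_restrictAlong_prop_iff (aP p q) (integral_aP p q) w (jF p) (jp p) 1 p).1 (by
      show 1 * (raP w).ord (jF p) = p * (raP w).ord (jp p)
      rw [h1, hc.zz_jp, hc.zz_j]; ring)
    rw [aP_jp, aP_j, one_mul] at this
    exact this

include hp in
theorem rbP_cases (h : w.ord (Jq p q) < 0) :
    (rbP w = oo p ∧ w.ord (Jpq p q) = p * w.ord (Jq p q)) ∨
      (rbP w = zz p ∧ w.ord (Jq p q) = p * w.ord (Jpq p q)) := by
  have hc := cuspFacts p hp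
  rcases hc.pole_j _ ((rbP_ord_j_neg w).2 h) with h1 | h1
  · left
    refine ⟨h1, ?_⟩
    have := (ord_restrictAlong_prop_iff (bP p q) (integral_bP p q) w (jp p) (jF p) 1 p).1 (by
      show 1 * (rbP w).ord (jp p) = p * (rbP w).ord (jF p)
      rw [h1, hc.oo_jp, hc.oo_j]; ring)
    rw [bP_jp, bP_j, one_mul] at this
    exact this
  · right
    refine ⟨h1, ?_⟩
    have := (ord_restrictAlong_prop_iff (bP p q) (integral_bP p q) w (jF p) (jp p) 1 p).1 (by
      show 1 * (rbP w).ord (jF p) = p * (rbP w).ord (jp p)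
      rw [h1, hc.zz_jp, hc.zz_j]; ring)
    rw [bP_jp, bP_j, one_mul] at this
    exact this

include hq in
theorem raQ_cases (h : w.ord (J1 p q) < 0) :
    w.ord (Jq p q) = q * w.ord (J1 p q) ∨ w.ord (J1 p q) = q * w.ord (Jq p q) := by
  have hc := cuspFacts q hq
  rcases hc.pole_j _ ((raQ_ord_j_neg w).2 h) with h1 | h1
  · left
    have := (ord_restrictAlong_prop_iff (aQ p q) (integral_aQ p q) w (jp q) (jF q) 1 q).1 (by
      show 1 * (raQ w).ord (jp q) = q * (raQ w).ord (jF q)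
      rw [h1, hc.oo_jp, hc.oo_j]; ring)
    rw [aQ_jq, aQ_j, one_mul] at this
    exact this
  · right
    have := (ord_restrictAlong_prop_iff (aQ p q) (integral_aQ p q) w (jF q) (jp q) 1 q).1 (by
      show 1 * (raQ w).ord (jF q) = q * (raQ w).ord (jp q)
      rw [h1, hc.zz_jp, hc.zz_j]; ring)
    rw [aQ_jq, aQ_j, one_mul] at this
    exact this

include hq in
theorem rbQ_cases (h : w.ord (Jp p q) < 0) :
    w.ord (Jpq p q) = q * w.ord (Jp p q) ∨ w.ord (Jp p q) = q * w.ord (Jpq p q) := by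
  have hc := cuspFacts q hq
  rcases hc.pole_j _ ((rbQ_ord_j_neg w).2 h) with h1 | h1
  · left
    have := (ord_restrictAlong_prop_iff (bQ p q) (integral_bQ p q) w (jp q) (jF q) 1 q).1 (by
      show 1 * (rbQ w).ord (jp q) = q * (rbQ w).ord (jF q)
      rw [h1, hc.oo_jp, hc.oo_j]; ring)
    rw [bQ_jq, bQ_j, one_mul] at this
    exact this
  · right
    have := (ord_restrictAlong_prop_iff (bQ p q) (integral_bQ p q) w (jF q) (jp q) 1 q).1 (by
      show 1 * (rbQ w).ord (jF q) = q * (rbQ w).ord (jp q)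
      rw [h1, hc.zz_jp, hc.zz_j]; ring)
    rw [bQ_jq, bQ_j, one_mul] at this
    exact this

include hp hq in
/-- a cusp of `X₀(p q)` lies over the same cusp of `X₀(p)` by both degeneracy maps. -/
theorem raP_eq_rbP_of_pole (hpq : p ≠ q) (h : w.ord (Jq p q) < 0) : raP w = rbP w := by
  have hc := cuspFacts p hp
  have h1 : w.ord (J1 p q) < 0 := (pole_J1_iff_Jq hq w).2 h
  have hP : (2 : ℤ) ≤ p := by exact_mod_cast hp.two_le
  have hQ : (2 : ℤ) ≤ q := by exact_mod_cast hq.two_le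
  have hPQ : (p : ℤ) ≠ q := by exact_mod_cast hpq
  have hJp : w.ord (Jp p q) < 0 := by
    rw [← raP_ord_jp_neg, ← pole_iff hp, raP_ord_j_neg]; exact h1
  rcases rbP_cases hp w h with ⟨hx, hx'⟩ | ⟨hx, hx'⟩
  · rcases raP_cases hp w h1 with ⟨hy, -⟩ | ⟨-, hy'⟩
    · rw [hx, hy]
    · exact absurd hy' (comb_cusp p q _ _ _ _ hP hQ hPQ h1 hx' (raQ_cases hq w h1) (rbQ_cases hq w hJp))
  · rcases raP_cases hp w h1 with ⟨-, hy'⟩ | ⟨hy, -⟩
    · exact absurd hy' (comb_cusp p q _ _ _ _ hP hQ hPQ hJp hx' (rbQ_cases hq w hJp) (raQ_cases hq w h1))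
    · rw [hx, hy]

end cusp

include hp hq in
/-- `T_q` of a cusp. -/
theorem heckeDiv_of_pole (hpq : p ≠ q) (x : Place Kbar (FN p)) (hx : x.ord (jF p) < 0) :
    heckeDiv p q (pt x) = ((q : ℤ) + 1) • pt x := by
  classical
  have hqp : ¬ q ∣ p := fun h => hpq ((Nat.prime_dvd_prime_iff_eq hq hp).1 h).symm
  have hsupp : ∀ y, heckeDiv p q (pt x) y ≠ 0 → y = x := by
    intro y hy
    obtain ⟨w, rfl, rfl⟩ := exists_place_of_heckeDiv hy
    exact raP_eq_rbP_of_pole hp hq w hpq ((rbP_ord_j_neg w).1 hx)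
  have h1 : heckeDiv p q (pt x) = Finsupp.single x (heckeDiv p q (pt x) x) := by
    ext y
    rw [Finsupp.single_apply]
    split_ifs with h
    · rw [h]
    · by_contra h0
      exact h (hsupp y h0).symm
  have h2 := degree_heckeDiv p q hq hqp (pt x)
  have hdeg : x.deg = 1 := Fermat.Agent.GAL.FF.Cor.deg_eq_one_of_isAlgClosed x
  rw [h1, Divisor.degree_single, degree_pt, hdeg] at h2
  rw [h1, Finsupp.smul_single, smul_eq_mul, mul_one]
  congr 1
  simpa using h2

include hp hq in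
theorem heckeDiv_oo (hpq : p ≠ q) : heckeDiv p q (pt (oo p)) = ((q : ℤ) + 1) • pt (oo p) :=
  heckeDiv_of_pole hp hq hpq _ (by rw [(cuspFacts p hp).oo_j]; omega)

include hp hq in
theorem heckeDiv_zz (hpq : p ≠ q) : heckeDiv p q (pt (zz p)) = ((q : ℤ) + 1) • pt (zz p) :=
  heckeDiv_of_pole hp hq hpq _ (by
    rw [(cuspFacts p hp).zz_j]
    have : (0 : ℤ) < p := by exact_mod_cast hp.pos
    omega)

end Fermat.Agent.S15.Outer
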