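import Fermat.Agent.S15.Outer.Model
import Fermat.Agent.S15.Outer.QuadMain
import Fermat.Agent.S15.Outer.Dich

/-!
# S15 / OUTER, block DISC, route (Q1) + (Q2) + (DICH) + (COMB)  (helper62)

`T_q` (`q ≠ p` prime) preserves the `A`-adic discs around the two cusps for every valuation ring `A ∣ ℓ`, `ℓ ≠ p, q`.
SORRY-FREE; no modular equation needed.  `ModelS S t T ε` = `Model t T ε` with `presZ`, `presI` only for `A ∣ ℓ ∈ S`, `ℓ ≠ p`;
every `t ∈ TTS p S` has one (`exists_modelS`).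
-/

set_option autoImplicit false

noncomputable section

namespace Fermat.Agent.S15.Outer

open AlgebraicCurve ModularCurve Fermat.Agent.S24 Fermat.Agent.S37 Fermat.Agent.Lib.RR

variable {p : ℕ} [NeZero p]

theorem eq_of_mem_support_smul_pt {x y : Place Kbar (FN p)} {n : ℤ}
    (h : y ∈ (↑(n • pt x : Dv p).support : Set (Place Kbar (FN p)))) : y = x := by
  classical
  rw [Finset.mem_coe, Finsupp.mem_support_iff, Finsupp.smul_apply] at h
  by_contra hne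
  apply h
  have : (pt x : Dv p) y = 0 := Finsupp.single_eq_of_ne hne
  rw [this, smul_zero]

theorem presZ_hecke_L (hp : p.Prime) (q : ℕ) [NeZero q] (hq : q.Prime) (hqp : q ≠ p) {ℓ : ℕ}
    (hℓ : ℓ.Prime) (hℓp : ℓ ≠ p) (hℓq : ℓ ≠ q) (A : ValuationSubring Kbar)
    (hA : A.LiesOverPrime ℓ) : Pres (ZA p A) (heckeDiv p q) := by
  refine Pres.of_single ?_
  rintro x (rfl | ⟨a, b, hx, hn⟩) y hy
  · left
    have h1 : heckeDiv p q (Finsupp.single (zz p) 1) = ((q : ℤ) + 1) • pt (zz p) :=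
      heckeDiv_zz hp hq hqp.symm
    rw [h1] at hy
    exact eq_of_mem_support_smul_pt hy
  · right
    rw [Finset.mem_coe, Finsupp.mem_support_iff] at hy
    obtain ⟨a', b', u, v, h1, h2, h3⟩ := heckeDiv_isPt hp hq (x := x) (y := y) hy hx
    exact ⟨a', b', h1, Dich.nearZero_of_quad hp hq hqp.symm hℓ hℓp hℓq hA h1 h2 h3 hn⟩

theorem presI_hecke_L (hp : p.Prime) (q : ℕ) [NeZero q] (hq : q.Prime) (hqp : q ≠ p) {ℓ : ℕ}
    (hℓ : ℓ.Prime) (hℓp : ℓ ≠ p) (hℓq : ℓ ≠ q) (A : ValuationSubring Kbar)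
    (hA : A.LiesOverPrime ℓ) : Pres (IA p A) (heckeDiv p q) := by
  refine Pres.of_single ?_
  rintro x (rfl | ⟨a, b, hx, hn⟩) y hy
  · left
    have h1 : heckeDiv p q (Finsupp.single (oo p) 1) = ((q : ℤ) + 1) • pt (oo p) :=
      heckeDiv_oo hp hq hqp.symm
    rw [h1] at hy
    exact eq_of_mem_support_smul_pt hy
  · right
    rw [Finset.mem_coe, Finsupp.mem_support_iff] at hy
    obtain ⟨a', b', u, v, h1, h2, h3⟩ := heckeDiv_isPt hp hq (x := x) (y := y) hy hx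
    exact ⟨a', b', h1, Dich.nearInf_of_quad hp hq hqp.symm hℓ hℓp hℓq hA h1 h2 h3 hn⟩

/-- the divisor level model of an endomorphism of `J₀(p)`, discs only at the places over `S`. -/
structure ModelS (S : Finset ℕ) (t : Module.End ℤ (JZero p)) (T : Dv p →+ Dv p) (ε : ℤ) : Prop where
  deg : ∀ D : Dv p, Divisor.degree (T D) = ε * Divisor.degree D
  cls : ∀ (D : Dv p) (h : D ∈ Divisor.degZero (K := Kbar) (F := FN p))
    (h' : T D ∈ Divisor.degZero (K := Kbar) (F := FN p)), t (Pic0.mk ⟨D, h⟩) = Pic0.mk ⟨T D, h'⟩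
  presZ : ∀ ℓ ∈ S, ℓ.Prime → ℓ ≠ p → ∀ A : ValuationSubring Kbar, A.LiesOverPrime ℓ →
    Pres (ZA p A) T
  presI : ∀ ℓ ∈ S, ℓ.Prime → ℓ ≠ p → ∀ A : ValuationSubring Kbar, A.LiesOverPrime ℓ →
    Pres (IA p A) T
  zz : T (pt (zz p)) = ε • pt (zz p)
  oo : T (pt (oo p)) = ε • pt (oo p)

variable {S : Finset ℕ}

theorem ModelS.mem_degZero {t : Module.End ℤ (JZero p)} {T : Dv p →+ Dv p} {ε : ℤ}
    (h : ModelS S t T ε) {D : Dv p} (hD : D ∈ Divisor.degZero (K := Kbar) (F := FN p)) :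
    T D ∈ Divisor.degZero (K := Kbar) (F := FN p) := by
  rw [mem_degZero_iff] at hD ⊢
  rw [h.deg, hD, mul_zero]

theorem ModelS.algebraMap (n : ℤ) :
    ModelS S (algebraMap ℤ (Module.End ℤ (JZero p)) n) (n • AddMonoidHom.id (Dv p)) n where
  deg D := by
    rw [AddMonoidHom.smul_apply, AddMonoidHom.id_apply, map_zsmul, smul_eq_mul]
  cls D h h' := by
    rw [Module.algebraMap_end_apply, ← mk_zsmul']
    rfl
  presZ _ _ _ _ A _ := Pres.smul_id _ n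
  presI _ _ _ _ A _ := Pres.smul_id _ n
  zz := rfl
  oo := rfl

theorem ModelS.add {t t' : Module.End ℤ (JZero p)} {T T' : Dv p →+ Dv p} {ε ε' : ℤ}
    (h : ModelS S t T ε) (h' : ModelS S t' T' ε') : ModelS S (t + t') (T + T') (ε + ε') where
  deg D := by
    rw [AddMonoidHom.add_apply, map_add, h.deg, h'.deg, add_mul]
  cls D hD hD' := by
    rw [LinearMap.add_apply, h.cls D hD (h.mem_degZero hD), h'.cls D hD (h'.mem_degZero hD),
      ← Pic0.mk_add]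
    rfl
  presZ ℓ h1 h2 h3 A hA := (h.presZ ℓ h1 h2 h3 A hA).add (h'.presZ ℓ h1 h2 h3 A hA)
  presI ℓ h1 h2 h3 A hA := (h.presI ℓ h1 h2 h3 A hA).add (h'.presI ℓ h1 h2 h3 A hA)
  zz := by rw [AddMonoidHom.add_apply, h.zz, h'.zz, add_smul]
  oo := by rw [AddMonoidHom.add_apply, h.oo, h'.oo, add_smul]

theorem ModelS.mul {t t' : Module.End ℤ (JZero p)} {T T' : Dv p →+ Dv p} {ε ε' : ℤ}
    (h : ModelS S t T ε) (h' : ModelS S t' T' ε') : ModelS S (t * t') (T.comp T') (ε * ε') where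
  deg D := by
    rw [AddMonoidHom.comp_apply, h.deg, h'.deg, mul_assoc]
  cls D hD hD' := by
    rw [Module.End.mul_apply, h'.cls D hD (h'.mem_degZero hD),
      h.cls (T' D) (h'.mem_degZero hD) (h.mem_degZero (h'.mem_degZero hD))]
    rfl
  presZ ℓ h1 h2 h3 A hA := (h.presZ ℓ h1 h2 h3 A hA).comp (h'.presZ ℓ h1 h2 h3 A hA)
  presI ℓ h1 h2 h3 A hA := (h.presI ℓ h1 h2 h3 A hA).comp (h'.presI ℓ h1 h2 h3 A hA)
  zz := by rw [AddMonoidHom.comp_apply, h'.zz, map_zsmul, h.zz, smul_smul, mul_comm]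
  oo := by rw [AddMonoidHom.comp_apply, h'.oo, map_zsmul, h.oo, smul_smul, mul_comm]

/-- the model of a generator. -/
theorem modelS_hecke (hp : p.Prime) (q : Nat.Primes) (hqp : (q : ℕ) ≠ p) (hqS : (q : ℕ) ∉ S) :
    ModelS S (heckeOperatorBar p q) (haveI : NeZero (q : ℕ) := ⟨q.2.ne_zero⟩; heckeDiv p q)
      ((q : ℤ) + 1) := by
  haveI : NeZero (q : ℕ) := ⟨q.2.ne_zero⟩
  have hqN : ¬ (q : ℕ) ∣ p := fun h => hqp ((Nat.prime_dvd_prime_iff_eq q.2 hp).1 h)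
  refine ⟨?_, ?_, ?_, ?_, heckeDiv_zz hp q.2 hqp.symm, heckeDiv_oo hp q.2 hqp.symm⟩
  · exact degree_heckeDiv p q q.2 hqN
  · intro D h h'
    exact (heckeOperatorBar_apply p q (Pic0.mk ⟨D, h⟩)).trans (heckeOperatorAlong_mk p q ⟨D, h⟩)
  · intro ℓ hℓS hℓ hℓp A hA
    exact presZ_hecke_L hp q q.2 hqp hℓ hℓp (fun h => hqS (h ▸ hℓS)) A hA
  · intro ℓ hℓS hℓ hℓp A hA
    exact presI_hecke_L hp q q.2 hqp hℓ hℓp (fun h => hqS (h ▸ hℓS)) A hA

/-- every `t ∈ TTS p S` has a model. -/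
theorem exists_modelS (hp : p.Prime) (S : Finset ℕ) (t : Module.End ℤ (JZero p))
    (ht : t ∈ TTS p S) : ∃ (T : Dv p →+ Dv p) (ε : ℤ), ModelS S t T ε := by
  unfold TTS at ht
  induction ht using Algebra.adjoin_induction with
  | mem x hx =>
    obtain ⟨q, hq, hqS, rfl⟩ := hx
    exact ⟨_, _, modelS_hecke hp q hq hqS⟩
  | algebraMap n => exact ⟨_, _, ModelS.algebraMap n⟩
  | add x y _ _ hx hy =>
    obtain ⟨T, ε, h⟩ := hx
    obtain ⟨T', ε', h'⟩ := hy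
    exact ⟨_, _, h.add h'⟩
  | mul x y _ _ hx hy =>
    obtain ⟨T, ε, h⟩ := hx
    obtain ⟨T', ε', h'⟩ := hy
    exact ⟨_, _, h.mul h'⟩

end Fermat.Agent.S15.Outer
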