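import Fermat.Agent.S15.Outer.Defs
import Fermat.Agent.S15.Red.Top
import Fermat.Agent.GAL.KL.All

/-!
# S15 / OUTER: the local package at a prime `ℓ ≠ p`
-/

set_option autoImplicit false
set_option linter.unusedSectionVars false

noncomputable section

namespace Fermat.Agent.S15.Outer

open AlgebraicCurve ModularCurve Fermat.Agent.Lib.RR Fermat.Agent.GAL Fermat.Agent.GAL.RED
  Fermat.Agent.GAL.Hecke Fermat.Agent.GAL.Igusa Fermat.Agent.S24 Fermat.Agent.S37

/-- **INPUT FROM BLOCK CUSP (helper14)**: the cuspidal group injects into the reduction at `ℓ ≥ 5`. -/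
def InjC (p : ℕ) [NeZero p] : Prop :=
  ∀ (ℓ : ℕ), ℓ.Prime → ℓ ≠ p → 5 ≤ ℓ → ∀ (A : ValuationSubring Kbar), A.LiesOverPrime ℓ →
    ∀ (c : ℕ) [NeZero c] [IsAlgClosed (IsLocalRing.ResidueField ↥A)]
      (hM : ((p * c : ℕ) : IsLocalRing.ResidueField ↥A) ≠ 0)
      [Lib.RR.IsFF (IsLocalRing.ResidueField ↥A) (E (IsLocalRing.ResidueField ↥A) (p * c))]
      (_ : genusFF Kbar (FN (p * c)) =
        genusFF (IsLocalRing.ResidueField ↥A) (E (IsLocalRing.ResidueField ↥A) (p * c)))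
      (_ : 4 ∣ p * c ∨ 9 ∣ p * c)
      (r : Place Kbar (FN (p * c)) →
        Place (IsLocalRing.ResidueField ↥A) (E (IsLocalRing.ResidueField ↥A) (p * c))),
      IsRedMap (redFN A (p * c) hM) r → ∀ n : ℤ,
        n • Rdiv r (ptDiv p (zz p) (oo p)) ∈ prinN A p c → n • cusp p = 0

/-- the local package: a "reduction map" `R` on divisors with values in a group `G`, and the subgroup `P` of "principal" elements. -/
structure LocPkg (p ℓ : ℕ) [NeZero p] (A : ValuationSubring Kbar) {G : Type} [AddCommGroup G]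
    (R : Dv p →+ G) (P : AddSubgroup G) : Prop where
  prin : ∀ u : FN p, u ≠ 0 → R (divOf u) ∈ P
  zero : ∀ x ∈ ZA p A, R (Finsupp.single x 1) = R (Finsupp.single (zz p) 1)
  inf : ∀ x ∈ IA p A, R (Finsupp.single x 1) = R (Finsupp.single (oo p) 1)
  inj : ∀ m : ℕ, ¬ ℓ ∣ m → ∀ (D : Dv p) (f : FN p), f ≠ 0 → m • D = divOf f → R D ∈ P →
    ∃ w : FN p, w ≠ 0 ∧ D = divOf w
  injc : 5 ≤ ℓ → ∀ n : ℤ, n • R (ptDiv p (zz p) (oo p)) ∈ P → n • cusp p = 0

theorem exists_loc {p : ℕ} [NeZero p] (hp : p.Prime) (hC : InjC p) {ℓ : ℕ} (hℓ : ℓ.Prime)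
    (hℓp : ℓ ≠ p) (A : ValuationSubring Kbar) (hA : A.LiesOverPrime ℓ) :
    ∃ (G : Type) (_ : AddCommGroup G) (R : Dv p →+ G) (P : AddSubgroup G), LocPkg p ℓ A R P := by
  have hℓp' : ¬ ℓ ∣ p := fun h => hℓp ((Nat.prime_dvd_prime_iff_eq hℓ hp).1 h)
  have hchar := charP_residueField A hℓ hA
  have key : ∀ (c : ℕ) [NeZero c], ¬ ℓ ∣ p * c → (4 ∣ p * c ∨ 9 ∣ p * c) →
      ∃ (G : Type) (_ : AddCommGroup G) (R : Dv p →+ G) (P : AddSubgroup G), LocPkg p ℓ A R P := by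
    intro c _ hℓc hneat
    have hM : ((p * c : ℕ) : IsLocalRing.ResidueField ↥A) ≠ 0 := by
      rw [Ne, CharP.cast_eq_zero_iff (IsLocalRing.ResidueField ↥A) ℓ]
      exact hℓc
    have hN : ((p : ℕ) : IsLocalRing.ResidueField ↥A) ≠ 0 := by
      rw [Ne, CharP.cast_eq_zero_iff (IsLocalRing.ResidueField ↥A) ℓ]
      exact hℓp'
    have i1 := INJ.isAlgClosed_residueField A
    have i2 := Igusa.isFF_E (IsLocalRing.ResidueField ↥A) (p * c) hM
    have hg : genusFF Kbar (FN (p * c)) =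
        genusFF (IsLocalRing.ResidueField ↥A) (E (IsLocalRing.ResidueField ↥A) (p * c)) := by
      rw [Igusa.genusFF_eq' A (p * c) hM hneat]
      exact genusFF_congr (modularFunctionFieldBar_eq_fullC (p * c))
    obtain ⟨r, hr⟩ := RED.exists_isRedMap (redFN A (p * c) hM) (redFN_isCartesian hM) hg
    refine ⟨_, inferInstance, Rdiv r, prinN A p c, ?_, ?_, ?_, ?_, ?_⟩
    · intro u hu
      exact Rdiv_divOf_mem hM hg hr u hu
    · rintro x (rfl | ⟨a, b, hx, h⟩)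
      · rfl
      · exact Red.Rdiv_of_nearZero hp hr hx h
    · rintro x (rfl | ⟨a, b, hx, h⟩)
      · rfl
      · exact Red.Rdiv_of_nearInf hp hr hx h
    · intro m hm D f hf hD hR
      have hm' : ((m : ℕ) : IsLocalRing.ResidueField ↥A) ≠ 0 := by
        rw [Ne, CharP.cast_eq_zero_iff (IsLocalRing.ResidueField ↥A) ℓ]
        exact hm
      exact principal_of_Rdiv_mem hM hg hr m hm' (KL.klAll p (NeZero.ne p) A m hN hm') D f hf hD hR
    · intro h5 n hn
      exact hC ℓ hℓ hℓp h5 A hA c hM hg hneat r hr n hn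
  by_cases h2 : ℓ = 2
  · have : NeZero 9 := ⟨by norm_num⟩
    refine key 9 ?_ (Or.inr (Dvd.intro_left p rfl))
    intro h
    rcases hℓ.dvd_mul.1 h with h | h
    · exact hℓp' h
    · rw [h2] at h
      norm_num at h
  · have : NeZero 4 := ⟨by norm_num⟩
    refine key 4 ?_ (Or.inl (Dvd.intro_left p rfl))
    intro h
    rcases hℓ.dvd_mul.1 h with h | h
    · exact hℓp' h
    · have h4 : ℓ ∣ 2 ^ 2 := by norm_num; exact h
      exact h2 ((Nat.prime_dvd_prime_iff_eq hℓ Nat.prime_two).1 (hℓ.dvd_of_dvd_pow h4))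

end Fermat.Agent.S15.Outer
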