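import Fermat.Agent.S15.Outer.GenRed
import Fermat.Agent.S15.Outer.Loc

/-!
# S15 / OUTER: `KeyAt p` from `Fin`, the models, the local packages and the cusp facts
-/

set_option autoImplicit false
set_option linter.unusedSectionVars false

noncomputable section

namespace Fermat.Agent.S15.Outer

open AlgebraicCurve ModularCurve Fermat.Agent.Lib.RR Fermat.Agent.GAL Fermat.Agent.GAL.RED
  Fermat.Agent.S24 Fermat.Agent.S37

/-! ### abstract lemmas -/

theorem R_of_supp {X G : Type*} [AddCommGroup G] (R : (X →₀ ℤ) →+ G) (S : Set X) (g : G)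
    (h : ∀ x ∈ S, R (Finsupp.single x 1) = g) (D : X →₀ ℤ) (hD : (↑D.support : Set X) ⊆ S) :
    R D = (D.sum fun _ n => n) • g := by
  classical
  have hE : D = D.sum fun Q n => n • Finsupp.single Q (1 : ℤ) := by
    conv_lhs => rw [← Finsupp.sum_single D]
    refine Finsupp.sum_congr fun Q _ => ?_
    rw [Finsupp.smul_single, smul_eq_mul, mul_one]
  conv_lhs => rw [hE]
  rw [Finsupp.sum, map_sum, Finsupp.sum, Finset.sum_smul]
  refine Finset.sum_congr rfl fun Q hQ => ?_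
  rw [map_zsmul, h Q (hD hQ)]

/-- injectivity at `2` and at `3` together kill all torsion. -/
theorem lemmaA {Dv G₂ G₃ : Type*} [AddCommGroup Dv] [AddCommGroup G₂] [AddCommGroup G₃]
    (Prin : AddSubgroup Dv) (R₂ : Dv →+ G₂) (P₂ : AddSubgroup G₂) (R₃ : Dv →+ G₃)
    (P₃ : AddSubgroup G₃)
    (inj₂ : ∀ m : ℕ, ¬ 2 ∣ m → ∀ D : Dv, m • D ∈ Prin → R₂ D ∈ P₂ → D ∈ Prin)
    (inj₃ : ∀ m : ℕ, ¬ 3 ∣ m → ∀ D : Dv, m • D ∈ Prin → R₃ D ∈ P₃ → D ∈ Prin)
    (m : ℕ) (hm : m ≠ 0) (D : Dv) (hD : m • D ∈ Prin) (h₂ : R₂ D ∈ P₂) (h₃ : R₃ D ∈ P₃) :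
    D ∈ Prin := by
  obtain ⟨a, m', hm', rfl⟩ := Nat.exists_eq_pow_mul_and_not_dvd hm 2 (by norm_num)
  have h1 : (2 ^ a) • D ∈ Prin := by
    refine inj₂ m' hm' _ ?_ ?_
    · rw [smul_smul, mul_comm]; exact hD
    · rw [map_nsmul]; exact P₂.nsmul_mem h₂ _
  refine inj₃ (2 ^ a) ?_ D h1 h₃
  intro h
  have := Nat.Prime.dvd_of_dvd_pow Nat.prime_three h
  norm_num at this

variable {p : ℕ} [NeZero p]

/-- the class map as a homomorphism. -/
def mkHom (p : ℕ) : Divisor.degZero (K := Kbar) (F := FN p) →+ JZero p :=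
  QuotientAddGroup.mk' ((Divisor.principal (K := Kbar) (F := FN p)).addSubgroupOf
          (Divisor.degZero (K := Kbar) (F := FN p)))

theorem mkHom_apply (D : Divisor.degZero (K := Kbar) (F := FN p)) : mkHom p D = Pic0.mk D := rfl

/-- the subgroup of principal divisors, in `divOf` form. -/
def Prin (p : ℕ) [NeZero p] : AddSubgroup (Dv p) where
  carrier := {D | ∃ w : FN p, w ≠ 0 ∧ D = divOf w}
  zero_mem' := ⟨1, one_ne_zero, by ext v; simp⟩
  add_mem' := by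
    rintro _ _ ⟨v, hv, rfl⟩ ⟨v', hv', rfl⟩
    exact ⟨v * v', mul_ne_zero hv hv', (divOf_mul hv hv').symm⟩
  neg_mem' := by
    rintro _ ⟨v, hv, rfl⟩
    exact ⟨v⁻¹, inv_ne_zero hv, (divOf_inv v).symm⟩

theorem mk_eq_zero_iff' (D : Dv p) (h : D ∈ Divisor.degZero (K := Kbar) (F := FN p)) :
    Pic0.mk ⟨D, h⟩ = 0 ↔ D ∈ Prin p := by
  rw [Main_mk_eq_zero_iff]
  constructor
  · rintro ⟨f, hf, hD⟩
    exact ⟨f, hf, Main_eq_divOf hD⟩
  · rintro ⟨f, hf, hD⟩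
    exact ⟨f, hf, fun v => by show D v = _; rw [hD, divOf_apply]⟩

theorem sum_eq_degree (D : Dv p) : (D.sum fun _ n => n) = Divisor.degree D :=
  (degree_eq_sum (K := Kbar) (F := FN p) D).symm

theorem supp_single_subset {S : Set (Place Kbar (FN p))} {x : Place Kbar (FN p)} (hx : x ∈ S) :
    (↑(Finsupp.single x (1 : ℤ)).support : Set (Place Kbar (FN p))) ⊆ S := by
  intro y hy
  have := Finsupp.support_single_subset hy
  rw [Finset.mem_singleton] at this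
  rw [this]; exact hx

theorem degree_single_one (x : Place Kbar (FN p)) :
    Divisor.degree (Finsupp.single x (1 : ℤ) : Dv p) = 1 := by
  rw [← sum_eq_degree, Finsupp.sum_single_index rfl]

/-- `R (T (x)) = ε R (x₀)` for `x` in a disc preserved by `T`. -/
theorem R_T_single {G : Type} [AddCommGroup G] (R : Dv p →+ G) {T : Dv p →+ Dv p} {ε : ℤ}
    (hdeg : ∀ D : Dv p, Divisor.degree (T D) = ε * Divisor.degree D)
    {S : Set (Place Kbar (FN p))} (hS : Pres S T) (g : G)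
    (h : ∀ x ∈ S, R (Finsupp.single x 1) = g) {x : Place Kbar (FN p)} (hx : x ∈ S) :
    R (T (Finsupp.single x 1)) = ε • g := by
  rw [R_of_supp R S g h _ (hS _ (supp_single_subset hx)), sum_eq_degree, hdeg, degree_single_one,
    mul_one]

/-- **The main theorem of OUTER**, modulo block CUSP (`InjC`, `Adm`) and the formal facts on `ptDiv`, `ptCls`. -/
theorem keyAt_of (hp : p.Prime) (hC : InjC p) (hadm : ∃ r, Adm p r)
    (hfix : ∀ x : Place Kbar (FN p), (∀ σ : GQ, gal p σ • x = x) → ptCls p x (zz p) ∈ JQ p)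
    (hmod : ∀ (S : Finset ℕ) (t : Module.End ℤ (JZero p)), t ∈ TTS p S →
      ∃ (T : Dv p →+ Dv p) (ε : ℤ), ModelG (GS p S) t T ε)
    (hFin : ∀ (r : ℕ) (S : Finset ℕ), Adm p r → Fin p r S) : KeyAt p := by
  intro x a b hx hpt ⟨A2, hA2, hz2⟩ ⟨A3, hA3, hz3⟩ ℓ hℓ hℓp h5 A hA hinf
  obtain ⟨r, hr⟩ := hadm
  obtain ⟨t, ht, ⟨b', htc⟩, htors⟩ := hFin r {2, 3, ℓ} hr
  obtain ⟨T, ε, hT⟩ := hmod {2, 3, ℓ} t ht
  have hp2 : (2 : ℕ) ≠ p := by
    rintro rfl
    exact hr.2.1 (by simp)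
  have hp3 : (3 : ℕ) ≠ p := by
    rintro rfl
    exact hr.2.1 (by simp)
  have hdegpt : ∀ x y : Place Kbar (FN p), ptDiv p x y ∈ Divisor.degZero (K := Kbar) (F := FN p) := by
    intro x y
    rw [mem_degZero_iff, ptDiv, map_sub, degree_single_one, degree_single_one, sub_self]
  have hcls : ∀ x y : Place Kbar (FN p), ptCls p x y = Pic0.mk ⟨ptDiv p x y, hdegpt x y⟩ := by
    intro x y
    rw [ptCls, dif_pos (hdegpt x y)]
  -- torsion
  obtain ⟨m, hm, hmz⟩ := htors _ (hfix x hx)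
  rw [hcls, hT.cls _ (hdegpt _ _) (hT.mem_degZero (hdegpt _ _)), ← Main_mk_nsmul] at hmz
  have hmP : m • T (ptDiv p x (zz p)) ∈ Prin p := (mk_eq_zero_iff' _ _).1 hmz
  -- step 1
  obtain ⟨G2, _, R2, P2, L2⟩ := exists_loc hp hC Nat.prime_two hp2 A2 hA2
  obtain ⟨G3, _, R3, P3, L3⟩ := exists_loc hp hC Nat.prime_three hp3 A3 hA3
  have hG2 : GS p {2, 3, ℓ} A2 := Or.inr ⟨2, by simp, Nat.prime_two, hp2, hA2⟩
  have hG3 : GS p {2, 3, ℓ} A3 := Or.inr ⟨3, by simp, Nat.prime_three, hp3, hA3⟩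
  have hGl : GS p {2, 3, ℓ} A := Or.inr ⟨ℓ, by simp, hℓ, hℓp, hA⟩
  have hzero : ∀ (B : ValuationSubring Kbar) (_ : GS p {2, 3, ℓ} B) {G : Type} [AddCommGroup G]
      (R : Dv p →+ G), (∀ y ∈ ZA p B, R (Finsupp.single y 1) = R (Finsupp.single (zz p) 1)) → NearZero B p a b →
      R (T (ptDiv p x (zz p))) = 0 := by
    intro B hB G _ R hR hz
    rw [ptDiv, map_sub, map_sub,
      R_T_single R hT.deg (hT.presZ B hB) _ hR (Or.inr ⟨a, b, hpt, hz⟩ : x ∈ ZA p B),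
      R_T_single R hT.deg (hT.presZ B hB) _ hR (Or.inl rfl : zz p ∈ ZA p B), sub_self]
  have hprin : T (ptDiv p x (zz p)) ∈ Prin p := by
    refine lemmaA (Prin p) R2 P2 R3 P3 ?_ ?_ m hm _ hmP ?_ ?_
    · rintro n hn D ⟨f, hf, hD⟩ hR
      exact L2.inj n hn D f hf hD hR
    · rintro n hn D ⟨f, hf, hD⟩ hR
      exact L3.inj n hn D f hf hD hR
    · rw [hzero A2 hG2 R2 L2.zero hz2]; exact P2.zero_mem
    · rw [hzero A3 hG3 R3 L3.zero hz3]; exact P3.zero_mem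
  -- step 2
  obtain ⟨G, _, R, P, L⟩ := exists_loc hp hC hℓ hℓp A hA
  have hzz : R (T (Finsupp.single (zz p) 1)) = ε • R (Finsupp.single (zz p) 1) :=
    R_T_single R hT.deg (hT.presZ A hGl) _ L.zero (Or.inl rfl : zz p ∈ ZA p A)
  have hoo : R (T (Finsupp.single (oo p) 1)) = ε • R (Finsupp.single (oo p) 1) :=
    R_T_single R hT.deg (hT.presI A hGl) _ L.inf (Or.inl rfl : oo p ∈ IA p A)
  have hxx : R (T (Finsupp.single x 1)) = ε • R (Finsupp.single (oo p) 1) :=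
    R_T_single R hT.deg (hT.presI A hGl) _ L.inf (Or.inr ⟨a, b, hpt, hinf⟩ : x ∈ IA p A)
  have h1 : ε • R (ptDiv p (zz p) (oo p)) ∈ P := by
    obtain ⟨w, hw, hwD⟩ := hprin
    have h2 := L.prin w hw
    rw [← hwD, ptDiv, map_sub, map_sub, hxx, hzz] at h2
    have h3 := P.neg_mem h2
    rw [neg_sub, ← smul_sub] at h3
    rw [ptDiv, map_sub]
    exact h3
  have h2 : T (ptDiv p (zz p) (oo p)) - (1 - (r : ℤ) * b') • ptDiv p (zz p) (oo p) ∈ Prin p := by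
    rw [cusp, hcls, hT.cls _ (hdegpt _ _) (hT.mem_degZero (hdegpt _ _)), ← mk_zsmul', ← sub_eq_zero,
      ← mkHom_apply, ← mkHom_apply, ← map_sub, mkHom_apply] at htc
    exact (mk_eq_zero_iff' _ _).1 htc
  have h3 : (1 - (r : ℤ) * b') • R (ptDiv p (zz p) (oo p)) ∈ P := by
    obtain ⟨w, hw, hwD⟩ := h2
    have h4 := L.prin w hw
    rw [← hwD, map_sub, map_zsmul] at h4
    have h5 : R (T (ptDiv p (zz p) (oo p))) = ε • R (ptDiv p (zz p) (oo p)) := by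
      rw [ptDiv, map_sub, map_sub, hzz, hoo, map_sub, smul_sub]
    rw [h5] at h4
    have h6 := P.sub_mem h1 h4
    rwa [sub_sub_cancel] at h6
  have h4 := L.injc h5 _ h3
  have h5' : (addOrderOf (cusp p) : ℤ) ∣ 1 - (r : ℤ) * b' := (addOrderOf_dvd_iff_zsmul_eq_zero).2 h4
  have h6 : (r : ℤ) ∣ 1 - (r : ℤ) * b' := (Int.natCast_dvd_natCast.2 hr.2.2.2.1).trans h5'
  have h7 : (r : ℤ) ∣ 1 := by
    have := dvd_add h6 (Dvd.intro b' rfl : (r : ℤ) ∣ (r : ℤ) * b')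
    rwa [sub_add_cancel] at this
  have h8 : r ∣ 1 := by exact_mod_cast h7
  exact hr.2.2.1.one_lt.ne' (Nat.dvd_one.1 h8)

end Fermat.Agent.S15.Outer
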