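import Fermat.Agent.S15.Outer.Defs

/-!
# S15 / OUTER: every `t ∈ TTS p S` has a divisor level model (formal part)
-/

set_option autoImplicit false

noncomputable section

namespace Fermat.Agent.S15.Outer

open AlgebraicCurve ModularCurve Fermat.Agent.S24 Fermat.Agent.S37 Fermat.Agent.Lib.RR

variable {p : ℕ} [NeZero p]

theorem mk_zsmul' (D : Divisor.degZero (K := Kbar) (F := FN p)) (n : ℤ) :
    Pic0.mk (n • D) = n • Pic0.mk D :=
  map_zsmul (QuotientAddGroup.mk' ((Divisor.principal (K := Kbar) (F := FN p)).addSubgroupOf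
          (Divisor.degZero (K := Kbar) (F := FN p)))) n D

theorem Model.algebraMap (n : ℤ) :
    Model (algebraMap ℤ (Module.End ℤ (JZero p)) n) (n • AddMonoidHom.id (Dv p)) n where
  deg D := by
    rw [AddMonoidHom.smul_apply, AddMonoidHom.id_apply, map_zsmul, smul_eq_mul]
  cls D h h' := by
    rw [Module.algebraMap_end_apply, ← mk_zsmul']
    rfl
  presZ A := Pres.smul_id _ n
  presI A := Pres.smul_id _ n

theorem Model.add {t t' : Module.End ℤ (JZero p)} {T T' : Dv p →+ Dv p} {ε ε' : ℤ}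
    (h : Model t T ε) (h' : Model t' T' ε') : Model (t + t') (T + T') (ε + ε') where
  deg D := by
    rw [AddMonoidHom.add_apply, map_add, h.deg, h'.deg, add_mul]
  cls D hD hD' := by
    rw [LinearMap.add_apply, h.cls D hD (h.mem_degZero hD), h'.cls D hD (h'.mem_degZero hD),
      ← Pic0.mk_add]
    rfl
  presZ A := (h.presZ A).add (h'.presZ A)
  presI A := (h.presI A).add (h'.presI A)

theorem Model.mul {t t' : Module.End ℤ (JZero p)} {T T' : Dv p →+ Dv p} {ε ε' : ℤ}
    (h : Model t T ε) (h' : Model t' T' ε') : Model (t * t') (T.comp T') (ε * ε') where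
  deg D := by
    rw [AddMonoidHom.comp_apply, h.deg, h'.deg, mul_assoc]
  cls D hD hD' := by
    rw [Module.End.mul_apply, h'.cls D hD (h'.mem_degZero hD),
      h.cls (T' D) (h'.mem_degZero hD) (h.mem_degZero (h'.mem_degZero hD))]
    rfl
  presZ A := (h.presZ A).comp (h'.presZ A)
  presI A := (h.presI A).comp (h'.presI A)

/-- the formal induction. -/
theorem exists_model_of_gen
    (hgen : ∀ q : Nat.Primes, (q : ℕ) ≠ p →
      ∃ (T : Dv p →+ Dv p) (ε : ℤ), Model (heckeOperatorBar p q) T ε)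
    (S : Finset ℕ) (t : Module.End ℤ (JZero p)) (ht : t ∈ TTS p S) :
    ∃ (T : Dv p →+ Dv p) (ε : ℤ), Model t T ε := by
  unfold TTS at ht
  induction ht using Algebra.adjoin_induction with
  | mem x hx =>
    obtain ⟨q, hq, -, rfl⟩ := hx
    exact hgen q hq
  | algebraMap n => exact ⟨_, _, Model.algebraMap n⟩
  | add x y _ _ hx hy =>
    obtain ⟨T, ε, h⟩ := hx
    obtain ⟨T', ε', h'⟩ := hy
    exact ⟨_, _, h.add h'⟩
  | mul x y _ _ hx hy =>
    obtain ⟨T, ε, h⟩ := hx
    obtain ⟨T', ε', h'⟩ := hy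
    exact ⟨_, _, h.mul h'⟩

end Fermat.Agent.S15.Outer
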