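import Fermat.Agent.S15.Outer.DiscL
import Fermat.Agent.S15.Red.Top
import Fermat.Agent.S15.Cusp.Inj
import Fermat.Agent.S15.Cusp.Genus
import Fermat.Agent.S15.Cusp.Fix

/-!
# S15 / OUTER (block Z6): the top assembly `KeyOfFin` from the interfaces

Inputs:
* `CuspAdm.exists_adm`  : an admissible prime `r` (block CUSP / ADM);
* `CuspFix.gal_smul_zz` : the cusp `0` is rational;
* `Outer.exists_modelS` : every `t ∈ TTS p S` has a divisor level model (`Outer.ModelS`, helper62's `DiscL.lean`);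
* `Red.Rdiv_of_nearZero`, `Red.Rdiv_of_nearInf`, `S37.principal_of_Rdiv_mem`, `S37.Rdiv_divOf_mem`, `Cusp.zsmul_cusp_eq_zero_of_mem_prinN` (INJC).
-/

set_option autoImplicit false
set_option linter.unusedSectionVars false

noncomputable section

namespace Fermat.Agent.S15.OuterTop

open Fermat.Agent.S15.Outer AlgebraicCurve ModularCurve Fermat.Agent.S24 Fermat.Agent.S37 Fermat.Agent.Lib.RR
  Fermat.Agent.GAL Fermat.Agent.GAL.RED Fermat.Agent.GAL.Igusa Fermat.Agent.GAL.Hecke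

variable {p : ℕ} [NeZero p]

theorem isPt_to (x : Place Kbar (FN p)) {a b : Kbar} (h : IsPt p x a b) : S15.IsPt p x a b :=
  ⟨h.ha, h.hb⟩

theorem isPt_of (x : Place Kbar (FN p)) {a b : Kbar} (h : S15.IsPt p x a b) : IsPt p x a b :=
  ⟨h.ha, h.hb⟩

theorem Top_deg_eq_one (x : Place Kbar (FN p)) : x.deg = 1 :=
  haveI : Lib.RR.IsFF Kbar (FN p) := GAL.Desc.isFF_FF_Kbar p
  GAL.RED.deg_eq_one x

/-- a divisor supported on one point. -/
theorem eq_smul_single_of_support (D : Dv p) (x : Place Kbar (FN p))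
    (h : (↑D.support : Set (Place Kbar (FN p))) ⊆ {x}) :
    D = Divisor.degree D • Finsupp.single x (1 : ℤ) := by
  have h1 : D = Finsupp.single x (D x) := by
    apply Finsupp.support_subset_singleton.1
    intro y hy
    exact Finset.mem_singleton.2 (h hy)
  have h2 : Divisor.degree D = D x := by
    conv_lhs => rw [h1]
    rw [Divisor.degree_single, Top_deg_eq_one, Nat.cast_one, mul_one]
  rw [h2, Finsupp.smul_single, smul_eq_mul, mul_one]
  exact h1

theorem support_single_subset (x : Place Kbar (FN p)) {S : Set (Place Kbar (FN p))} (hx : x ∈ S) :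
    (↑(Finsupp.single x (1 : ℤ)).support : Set (Place Kbar (FN p))) ⊆ S := by
  intro y hy
  have := Finsupp.support_single_subset hy
  rw [Finset.mem_singleton] at this
  rw [this]
  exact hx

theorem degree_single_one (x : Place Kbar (FN p)) :
    Divisor.degree (Finsupp.single x (1 : ℤ)) = 1 := by
  rw [Divisor.degree_single, Top_deg_eq_one, Nat.cast_one, mul_one]

/-- an additive map which is constant on the points of the support. -/
theorem map_eq_degree_smul {Y : Type*} [AddCommGroup Y] (R : Dv p →+ Y) (y₀ : Y) (D : Dv p)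
    (h : ∀ x ∈ D.support, R (Finsupp.single x 1) = y₀) : R D = Divisor.degree D • y₀ := by
  classical
  have hE : D = D.sum fun Q n => n • Finsupp.single Q (1 : ℤ) := by
    conv_lhs => rw [← Finsupp.sum_single D]
    refine Finsupp.sum_congr fun Q _ => ?_
    rw [Finsupp.smul_single, smul_eq_mul, mul_one]
  conv_lhs => rw [hE]
  conv_rhs => rw [hE]
  rw [Finsupp.sum, map_sum, map_sum, Finset.sum_smul]
  refine Finset.sum_congr rfl fun x hx => ?_
  rw [map_zsmul, map_zsmul, h x hx, degree_single_one, smul_eq_mul, mul_one]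

theorem ptDiv_mem (x y : Place Kbar (FN p)) :
    ptDiv p x y ∈ Divisor.degZero (K := Kbar) (F := FN p) := by
  rw [mem_degZero_iff, ptDiv, map_sub, degree_single_one, degree_single_one, sub_self]

theorem ptCls_eq (x y : Place Kbar (FN p)) :
    ptCls p x y = Pic0.mk ⟨ptDiv p x y, ptDiv_mem x y⟩ := by
  rw [ptCls, dif_pos (ptDiv_mem x y)]

/-- the class of `(x) - (y)` is rational if `x` and `y` are. -/
theorem ptCls_mem_JQ {x y : Place Kbar (FN p)} (hx : ∀ σ : GQ, gal p σ • x = x)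
    (hy : ∀ σ : GQ, gal p σ • y = y) : ptCls p x y ∈ JQ p := by
  intro σ
  rw [ptCls_eq, galois_smul_pic0_def, SemilinearAut.pic0_smul_mk]
  congr 1
  apply Subtype.ext
  show gal p σ • ptDiv p x y = ptDiv p x y
  rw [ptDiv, smul_sub, SemilinearAut.smul_single, SemilinearAut.smul_single, hx, hy]

/-- the model computes `t` on the cuspidal class. -/
theorem map_cusp {S : Finset ℕ} {t : Module.End ℤ (JZero p)} {T : Dv p →+ Dv p} {ε : ℤ}
    (h : ModelS S t T ε) : t (cusp p) = ε • cusp p := by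
  have e : T (ptDiv p (zz p) (oo p)) = ε • ptDiv p (zz p) (oo p) := by
    have h1 := h.zz
    have h2 := h.oo
    unfold pt at h1 h2
    rw [ptDiv, map_sub, h1, h2, smul_sub]
  rw [cusp, ptCls_eq, h.cls _ (ptDiv_mem _ _) (h.mem_degZero (ptDiv_mem _ _)), ← mk_zsmul']
  congr 1
  exact Subtype.ext e

theorem mk_eq_zero_iff (D : Divisor.degZero (K := Kbar) (F := FN p)) :
    Pic0.mk D = 0 ↔ ∃ w : FN p, w ≠ 0 ∧ (D : Dv p) = divOf (K := Kbar) w := by
  rw [Main_mk_eq_zero_iff]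
  constructor
  · rintro ⟨f, hf, h⟩
    exact ⟨f, hf, Main_eq_divOf h⟩
  · rintro ⟨f, hf, h⟩
    exact ⟨f, hf, fun v => by rw [h, divOf_apply]⟩

/-! ## the reduction maps -/

/-- Elimination principle (as `Red.with_red`, with the genus equality, neatness and `INJ`). -/
theorem with_red' (p : ℕ) [NeZero p] {ℓ : ℕ} (hℓ : ℓ.Prime) (hℓp : ¬ ℓ ∣ p)
    (A : ValuationSubring Kbar) (hA : A.LiesOverPrime ℓ) {P : Prop}
    (H : ∀ (c : ℕ) [NeZero c] [IsAlgClosed (IsLocalRing.ResidueField ↥A)]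
      [CharP (IsLocalRing.ResidueField ↥A) ℓ]
      (hM : ((p * c : ℕ) : IsLocalRing.ResidueField ↥A) ≠ 0)
      [Lib.RR.IsFF (IsLocalRing.ResidueField ↥A) (E (IsLocalRing.ResidueField ↥A) (p * c))]
      (_ : genusFF Kbar (FN (p * c)) =
        genusFF (IsLocalRing.ResidueField ↥A) (E (IsLocalRing.ResidueField ↥A) (p * c)))
      (_ : 4 ∣ p * c ∨ 9 ∣ p * c)
      (r : Place Kbar (FN (p * c)) →
        Place (IsLocalRing.ResidueField ↥A) (E (IsLocalRing.ResidueField ↥A) (p * c))),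
      IsRedMap (redFN A (p * c) hM) r → P) : P := by
  have hchar := charP_residueField A hℓ hA
  have key : ∀ (c : ℕ) [NeZero c], ¬ ℓ ∣ p * c → (4 ∣ p * c ∨ 9 ∣ p * c) → P := by
    intro c _ hℓc hneat
    have hM : ((p * c : ℕ) : IsLocalRing.ResidueField ↥A) ≠ 0 := by
      rw [Ne, CharP.cast_eq_zero_iff (IsLocalRing.ResidueField ↥A) ℓ]
      exact hℓc
    have i1 := INJ.isAlgClosed_residueField A
    have i2 := Igusa.isFF_E (IsLocalRing.ResidueField ↥A) (p * c) hM
    have hg : genusFF Kbar (FN (p * c)) =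
        genusFF (IsLocalRing.ResidueField ↥A) (E (IsLocalRing.ResidueField ↥A) (p * c)) := by
      rw [Igusa.genusFF_eq' A (p * c) hM hneat]
      exact genusFF_congr (modularFunctionFieldBar_eq_fullC (p * c))
    obtain ⟨r, hr⟩ := RED.exists_isRedMap (redFN A (p * c) hM) (redFN_isCartesian hM) hg
    exact H c hM hg hneat r hr
  by_cases h2 : ℓ = 2
  · have : NeZero 9 := ⟨by norm_num⟩
    refine key 9 ?_ (Or.inr (Dvd.intro_left p rfl))
    intro h
    rcases hℓ.dvd_mul.1 h with h | h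
    · exact hℓp h
    · rw [h2] at h
      norm_num at h
  · have : NeZero 4 := ⟨by norm_num⟩
    refine key 4 ?_ (Or.inl (Dvd.intro_left p rfl))
    intro h
    rcases hℓ.dvd_mul.1 h with h | h
    · exact hℓp h
    · have h4 : ℓ ∣ 2 ^ 2 := by norm_num; exact h
      exact h2 ((Nat.prime_dvd_prime_iff_eq hℓ Nat.prime_two).1 (hℓ.dvd_of_dvd_pow h4))

section red

variable {A : ValuationSubring Kbar} {c : ℕ} [NeZero c]
  [IsAlgClosed (IsLocalRing.ResidueField ↥A)]
  [Lib.RR.IsFF (IsLocalRing.ResidueField ↥A) (E (IsLocalRing.ResidueField ↥A) (p * c))]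
  {hM : ((p * c : ℕ) : (IsLocalRing.ResidueField ↥A)) ≠ 0}
  {r : Place Kbar (FN (p * c)) →
    Place (IsLocalRing.ResidueField ↥A) (E (IsLocalRing.ResidueField ↥A) (p * c))}

/-- the reduction of a divisor supported on the disc around `0`. -/
theorem Rdiv_of_ZA (hp : p.Prime) (hr : IsRedMap (redFN A (p * c) hM) r) (D : Dv p)
    (hD : (↑D.support : Set (Place Kbar (FN p))) ⊆ ZA p A) :
    Rdiv r D = Divisor.degree D • Rdiv r (Finsupp.single (zz p) 1) := by
  refine map_eq_degree_smul (Rdiv r) _ D fun x hx => ?_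
  rcases hD hx with h | ⟨a, b, h1, h2⟩
  · rw [h]
  · exact Red.Rdiv_of_nearZero hp hr (isPt_to x h1) h2

/-- the reduction of a divisor supported on the disc around `∞`. -/
theorem Rdiv_of_IA (hp : p.Prime) (hr : IsRedMap (redFN A (p * c) hM) r) (D : Dv p)
    (hD : (↑D.support : Set (Place Kbar (FN p))) ⊆ IA p A) :
    Rdiv r D = Divisor.degree D • Rdiv r (Finsupp.single (oo p) 1) := by
  refine map_eq_degree_smul (Rdiv r) _ D fun x hx => ?_
  rcases hD hx with h | ⟨a, b, h1, h2⟩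
  · rw [h]
  · exact Red.Rdiv_of_nearInf hp hr (isPt_to x h1) h2

end red

/-- **Killing the prime-to-`ℓ` torsion**: a divisor of degree `0` supported on the disc around the cusp `0` at `A ∣ ℓ`, with `m • D` principal, `ℓ ∤ m`, is principal. -/
theorem principal_of_ZA (hp : p.Prime) {ℓ : ℕ} (hℓ : ℓ.Prime) (hℓp : ℓ ≠ p)
    {A : ValuationSubring Kbar} (hA : A.LiesOverPrime ℓ) (D : Dv p)
    (hD : (↑D.support : Set (Place Kbar (FN p))) ⊆ ZA p A) (hdeg : Divisor.degree D = 0)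
    (m : ℕ) (hm : ¬ ℓ ∣ m) (hmD : ∃ f : FN p, f ≠ 0 ∧ m • D = divOf (K := Kbar) f) :
    ∃ w : FN p, w ≠ 0 ∧ D = divOf (K := Kbar) w := by
  have hℓp' : ¬ ℓ ∣ p := fun h => hℓp ((Nat.prime_dvd_prime_iff_eq hℓ hp).1 h)
  refine with_red' p hℓ hℓp' A hA ?_
  intro c _ _ _ hM _ hg hneat r hr
  obtain ⟨f, hf, hfD⟩ := hmD
  have hm' : (m : IsLocalRing.ResidueField ↥A) ≠ 0 := by
    rw [Ne, CharP.cast_eq_zero_iff (IsLocalRing.ResidueField ↥A) ℓ]
    exact hm
  have hINJ : Hecke.INJ p m A :=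
    INJ.hecke_INJ_descent A p (p * c) (Dvd.intro _ rfl) hM m hm'
      (INJ.hecke_INJ_neat Igusa.cuspUpper Igusa.cuspLower A (p * c) hM hneat m hm')
  refine principal_of_Rdiv_mem hM hg hr m hm' hINJ D f hf hfD ?_
  rw [Rdiv_of_ZA hp hr D hD, hdeg, zero_smul]
  exact zero_mem _

/-- **The top assembly of block Z6.** -/
theorem keyAt_of (hp : p.Prime) {r : ℕ} (hr : Adm p r) (hFin : ∀ S : Finset ℕ, Fin p r S) :
    KeyAt p := by
  classical
  intro x a b hx hpt ⟨A2, hA2, h2⟩ ⟨A3, hA3, h3⟩ ℓ hℓ hℓp hℓ5 A hA hinf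
  obtain ⟨-, hp', hrp, hrc, hc0, -⟩ := hr
  have hp2 : (2 : ℕ) ≠ p := fun h => hp' (by simp [← h])
  have hp3 : (3 : ℕ) ≠ p := fun h => hp' (by simp [← h])
  obtain ⟨t, ht, ⟨b', hb'⟩, htors⟩ := hFin {2, 3, ℓ}
  obtain ⟨T, ε, hT⟩ := exists_modelS hp {2, 3, ℓ} t ht
  have hTzz : T (Finsupp.single (zz p) 1) = ε • Finsupp.single (zz p) (1 : ℤ) := hT.zz
  -- the divisor `D = T ((x) - (0))`
  set D : Dv p := T (ptDiv p x (zz p)) with hDdef
  have hDdeg : Divisor.degree D = 0 := hT.mem_degZero (ptDiv_mem x (zz p))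
  obtain ⟨m, hm0, hm⟩ := htors _ (ptCls_mem_JQ hx (CuspFix.gal_smul_zz p hp))
  rw [ptCls_eq, hT.cls _ (ptDiv_mem _ _) (hT.mem_degZero (ptDiv_mem _ _)), ← Main_mk_nsmul,
    mk_eq_zero_iff] at hm
  obtain ⟨f, hf, hfD⟩ := hm
  have hfD' : m • D = divOf (K := Kbar) f := hfD
  -- supports
  have hsupp : ∀ (ℓ' : ℕ), ℓ' ∈ ({2, 3, ℓ} : Finset ℕ) → ℓ'.Prime → ℓ' ≠ p →
      ∀ B : ValuationSubring Kbar, B.LiesOverPrime ℓ' → NearZero B p a b →
      (↑D.support : Set (Place Kbar (FN p))) ⊆ ZA p B := by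
    intro ℓ' hℓ'S hℓ' hℓ'p B hBℓ hB
    refine hT.presZ ℓ' hℓ'S hℓ' hℓ'p B hBℓ _ ?_
    intro y hy
    have hy' := Finsupp.support_sub hy
    rcases Finset.mem_union.1 hy' with h | h
    · exact support_single_subset x (Or.inr ⟨a, b, isPt_of x hpt, hB⟩) h
    · exact support_single_subset (zz p) (Or.inl rfl) h
  -- `m = 2 ^ k * m'`
  obtain ⟨k, m', hm', hmk⟩ := Nat.exists_eq_pow_mul_and_not_dvd hm0 2 (by norm_num)
  have hsmul : ∀ (n : ℕ) (B : ValuationSubring Kbar),
      (↑D.support : Set (Place Kbar (FN p))) ⊆ ZA p B →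
      (↑(n • D).support : Set (Place Kbar (FN p))) ⊆ ZA p B := by
    intro n B hB y hy
    exact hB (Finsupp.support_smul hy)
  have step2 : ∃ w : FN p, w ≠ 0 ∧ 2 ^ k • D = divOf (K := Kbar) w :=
    principal_of_ZA hp Nat.prime_two hp2 hA2 (2 ^ k • D)
      (hsmul _ _ (hsupp 2 (by simp) Nat.prime_two hp2 A2 hA2 h2))
      (by rw [map_nsmul, hDdeg, smul_zero]) m' hm'
      ⟨f, hf, by rw [smul_smul, mul_comm, ← hmk]; exact hfD'⟩
  have step3 : ∃ w : FN p, w ≠ 0 ∧ D = divOf (K := Kbar) w :=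
    principal_of_ZA hp Nat.prime_three hp3 hA3 D
      (hsupp 3 (by simp) Nat.prime_three hp3 A3 hA3 h3) hDdeg (2 ^ k)
      (by
        intro h
        have := (Nat.prime_dvd_prime_iff_eq Nat.prime_three Nat.prime_two).1
          (Nat.prime_three.dvd_of_dvd_pow h)
        omega) step2
  obtain ⟨w, hw, hDw⟩ := step3
  -- at `ℓ`
  have hε : ε • cusp p = 0 := by
    have hℓp' : ¬ ℓ ∣ p := fun h => hℓp ((Nat.prime_dvd_prime_iff_eq hℓ hp).1 h)
    refine with_red' p hℓ hℓp' A hA ?_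
    intro c _ _ _ hM _ hg hneat r hr
    have h1 : Rdiv r D ∈ prinN A p c := by
      rw [hDw]
      exact Rdiv_divOf_mem hM hg hr w hw
    have h2 : Rdiv r D = (-ε) • Rdiv r (ptDiv p (zz p) (oo p)) := by
      rw [hDdef, ptDiv, map_sub, hTzz, map_sub,
        Rdiv_of_IA hp hr (T (Finsupp.single x 1))
          (hT.presI ℓ (by simp) hℓ hℓp A hA _
            (support_single_subset x (Or.inr ⟨a, b, isPt_of x hpt, hinf⟩))),
        hT.deg, degree_single_one, mul_one, map_zsmul, ptDiv, map_sub, smul_sub, neg_smul,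
        neg_smul]
      abel
    rw [h2] at h1
    have h3 := Cusp.zsmul_cusp_eq_zero_of_mem_prinN hM hg hr hp hneat ℓ hℓ hℓ5 (-ε) h1
    rwa [neg_smul, neg_eq_zero] at h3
  -- conclusion
  rw [map_cusp hT, hε] at hb'
  have h4 : (addOrderOf (cusp p) : ℤ) ∣ 1 - (r : ℤ) * b' :=
    (addOrderOf_dvd_iff_zsmul_eq_zero).2 hb'.symm
  have h5 : (r : ℤ) ∣ 1 - (r : ℤ) * b' := (Int.natCast_dvd_natCast.2 hrc).trans h4
  have h6 : (r : ℤ) ∣ 1 := by
    have := dvd_add h5 (Dvd.intro b' rfl : (r : ℤ) ∣ (r : ℤ) * b')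
    simpa using this
  have h7 : r ∣ 1 := by exact_mod_cast h6
  exact hrp.one_lt.ne' (Nat.dvd_one.1 h7)

/-- **CONTRACT Z6.** -/
theorem keyOfFin : KeyOfFin := by
  intro p _ hp hp' hFin
  obtain ⟨r, hr⟩ := CuspAdm.exists_adm hp hp'
  exact keyAt_of hp hr (fun S => hFin r S hr)

end Fermat.Agent.S15.OuterTop
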